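import Fermat.Agent.LT.Unit.Corr
import Fermat.Agent.LT.Loc.GalRing

/-!
# The unit element at unramified nonsplit places, for a ring which is a field
-/

set_option autoImplicit false

open IsLocalRing Matrix
open scoped MatrixGroups

universe u t

namespace Fermat.Agent.LT.Unit

open Tw Loc

/-- `R` is a field, cyclic of degree three over `K`, with Galois group generated by `s`;
the extension `O ⊆ O'` of the rings of integers is unramified, `ϖ` is a uniformizer. -/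
structure UnrR {K R : Type*} [Field K] [CommRing R] [Algebra K R] (s : R ≃ₐ[K] R)
    (O : Subring K) (O' : Subring R) (ϖ : K) : Prop where
  isField : IsField R
  gal : Gal3 s
  mem : ∀ x : K, algebraMap K R x ∈ O' ↔ x ∈ O
  sig : ∀ x ∈ O', s x ∈ O'
  pmem : ϖ ∈ O
  pne : ϖ ≠ 0
  pnu : ∀ y ∈ O, ϖ * y ≠ 1
  val : ∀ x : R, x ≠ 0 → ∃ n m : ℕ, ∃ u ∈ O', ∃ u' ∈ O', u * u' = 1 ∧
    algebraMap K R ϖ ^ m * x = algebraMap K R ϖ ^ n * u
  alp : ∃ α ∈ O', ∃ β ∈ O', (α - s α) * β = 1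
  comp : IsAdicComplete (Ideal.span {(⟨ϖ, pmem⟩ : O)}) O
  fin : Finite (O' ⧸ Ideal.span {(⟨algebraMap K R ϖ, (mem ϖ).2 pmem⟩ : O')})

namespace UnrR

theorem ne_one {K R : Type*} [Field K] [CommRing R] [Algebra K R] {s : R ≃ₐ[K] R}
    (h : Gal3 s) [Nontrivial R] : ∃ x, s x ≠ x := by
  obtain ⟨n, x, y, h1, h2, -⟩ := h.dual
  by_contra hcon
  push Not at hcon
  simp only [hcon] at h2
  rw [h1] at h2
  exact one_ne_zero h2

theorem toUnr {K R : Type*} [Field K] [Field R] [Algebra K R] {s : R ≃ₐ[K] R}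
    {O : Subring K} {O' : Subring R} {ϖ : K} (D : UnrR s O O' ϖ) : Unr s O O' ϖ where
  cyc := ⟨D.gal.cube, D.gal.fixed, ne_one D.gal⟩
  mem := D.mem
  sig := D.sig
  pmem := D.pmem
  pinv h := D.pnu _ h (mul_inv_cancel₀ D.pne)
  val x hx := by
    obtain ⟨n, m, u, hu, u', hu', h1, h2⟩ := D.val x hx
    have hp : algebraMap K R ϖ ≠ 0 := by
      rw [Ne, map_eq_zero]
      exact D.pne
    refine ⟨(n : ℤ) - m, ⟨u, u', h1, by rw [mul_comm]; exact h1⟩, ⟨hu, hu'⟩, ?_⟩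
    rw [zpow_sub₀ hp, zpow_natCast, zpow_natCast]
    field_simp
    rw [mul_comm, h2]
  alp := by
    obtain ⟨α, hα, β, hβ, h⟩ := D.alp
    refine ⟨α, hα, left_ne_zero_of_mul_eq_one h, ?_⟩
    rw [← eq_inv_of_mul_eq_one_right h]
    exact hβ
  comp := D.comp
  fin := D.fin

theorem sig_mem_PO {K R : Type*} [Field K] [CommRing R] [Algebra K R] {s : R ≃ₐ[K] R}
    {O' : Subring R} (sig : ∀ x ∈ O', s x ∈ O') :
    ∀ g ∈ Glob.PO O', ProjGenLinGroup.map (s : R →+* R) g ∈ Glob.PO O' := by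
  rintro _ ⟨k, hk, rfl⟩
  rw [ProjGenLinGroup.map_mk]
  exact Glob.mk_mem_PO ⟨fun i j => sig _ (hk.1 i j), fun i j => by
    rw [← map_inv]; exact sig _ (hk.2 i j)⟩

/-- **The unit element at an unramified nonsplit place.** -/
theorem isMatchU {K R : Type u} [Field K] [inst : CommRing R] [Algebra K R] {s : R ≃ₐ[K] R}
    {O : Subring K} {O' : Subring R} {ϖ : K} (D : UnrR s O O' ϖ)
    (hU : ∀ k ∈ Glob.PO O', ProjGenLinGroup.map (s : R →+* R) k ∈ Glob.PO O') :
    IsMatchU.{u, t} (algebraMap K R) (s : R →+* R) hU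
      (BiInv.ind (Glob.PO O')) (BiInv.ind (Glob.PO O)) := by
  let _ : Field R := D.isField.toField
  exact (toUnr (K := K) (R := R) D).isMatchU

end UnrR

end Fermat.Agent.LT.Unit
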