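import Fermat.Agent.LT.Unit.Adic
import Fermat.Agent.LT.Unit.Ring
import Fermat.Agent.LT.Glob.ActE
import Fermat.Agent.LT.Loc.GalDich

/-!
# The unit element at the unramified nonsplit places of a cyclic cubic extension
-/

set_option autoImplicit false

open Filter IsDedekindDomain IsDedekindDomain.HeightOneSpectrum WithZero NumberField IsLocalRing
open scoped Topology MatrixGroups

namespace Fermat.Agent.LT.Unit

open Glob Loc

universe t

variable {k : Type*} [Field k] [NumberField k] {E : Type*} [Field E] [NumberField E]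
  [Algebra k E] {v : HeightOneSpectrum (𝓞 k)}

omit [NumberField k] in
theorem subsingleton_fib (hf : IsField (RE E v)) : Subsingleton (Fib E v) := by
  classical
  refine ⟨fun w w' => ?_⟩
  by_contra hne
  have hd := hf.isDomain
  have h1 : (Pi.single w 1 : RE E v) * Pi.single w' 1 = 0 := by
    funext u
    by_cases hu : u = w
    · subst hu
      rw [Pi.mul_apply, Pi.single_eq_of_ne hne, mul_zero, Pi.zero_apply]
    · rw [Pi.mul_apply, Pi.single_eq_of_ne hu, zero_mul, Pi.zero_apply]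
  rcases mul_eq_zero.1 h1 with h | h
  · have := congrFun h w
    rw [Pi.single_eq_same, Pi.zero_apply] at this
    exact one_ne_zero this
  · have := congrFun h w'
    rw [Pi.single_eq_same, Pi.zero_apply] at this
    exact one_ne_zero this

/-- the evaluation -/
noncomputable def evB [Subsingleton (Fib E v)] (w : Fib E v) : OE E v ≃+* Oc (K := E) w.1 :=
  RingEquiv.ofBijective
    ({ toFun := fun x => ⟨x.1 w, x.2 w⟩
       map_one' := rfl
       map_zero' := rfl
       map_mul' := fun _ _ => rfl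
       map_add' := fun _ _ => rfl } : OE E v →+* Oc (K := E) w.1)
    ⟨fun x y hxy => Subtype.ext (funext fun w' => by
        rw [Subsingleton.elim w' w]
        exact congrArg Subtype.val hxy),
      fun y => by
        classical
        refine ⟨⟨Pi.single w y.1, fun w' => ?_⟩, Subtype.ext ?_⟩
        · obtain rfl := Subsingleton.elim w w'
          rw [Pi.single_eq_same]
          exact y.2
        · change (Pi.single w y.1 : RE E v) w = _
          rw [Pi.single_eq_same]⟩

omit [NumberField k] in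
theorem evB_apply [Subsingleton (Fib E v)] (w : Fib E v) (x : OE E v) :
    (evB w x : w.1.adicCompletion E) = x.1 w := rfl

instance isLocalRing_Oc {F : Type*} [Field F] [NumberField F] (w : HeightOneSpectrum (𝓞 F)) :
    IsLocalRing (Oc (K := F) w) :=
  inferInstanceAs (IsLocalRing (w.adicCompletionIntegers F))

theorem isLocalRing_OE [Subsingleton (Fib E v)] : IsLocalRing (OE E v) := by
  obtain ⟨w⟩ := (inferInstance : Nonempty (Fib E v))
  exact (evB w).symm.isLocalRing

/-- the algebra structure on the rings of integers -/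
@[reducible] noncomputable def algO (v : HeightOneSpectrum (𝓞 k)) : Algebra (Oc (K := k) v) (OE E v) :=
  (((strE E v).comp (Oc (K := k) v).subtype).codRestrict (OE E v)
    fun x => strE_mem.2 x.2).toAlgebra

/-- the automorphism on the ring of integers -/
noncomputable def sO (v : HeightOneSpectrum (𝓞 k)) (σ : E ≃ₐ[k] E) :
    letI := algO (E := E) v; OE E v ≃ₐ[Oc (K := k) v] OE E v :=
  letI := algO (E := E) v
  AlgEquiv.ofRingEquiv (f :=
    ({ toFun := fun x => ⟨sHom v σ x.1, sHom_mem σ x.2⟩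
       invFun := fun x => ⟨sHom v σ⁻¹ x.1, sHom_mem σ⁻¹ x.2⟩
       left_inv := fun x => Subtype.ext (by
        change sHom v σ⁻¹ (sHom v σ x.1) = x.1
        rw [sHom_comp, inv_mul_cancel, sHom_one])
       right_inv := fun x => Subtype.ext (by
        change sHom v σ (sHom v σ⁻¹ x.1) = x.1
        rw [sHom_comp, mul_inv_cancel, sHom_one])
       map_mul' := fun x y => Subtype.ext (map_mul (sHom v σ) x.1 y.1)
       map_add' := fun x y => Subtype.ext (map_add (sHom v σ) x.1 y.1) } :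
      OE E v ≃+* OE E v)) fun x => Subtype.ext (sHom_str σ x.1)

theorem gal3_sO {σ : E ≃ₐ[k] E} (h : Gal3 σ)
    (hα : ∃ α ∈ OE E v, ∃ β ∈ OE E v, (α - sHom v σ α) * β = 1) :
    letI := algO (E := E) v
    Gal3 (sO v σ) := by
  let _ := algO (E := E) v
  obtain ⟨α, hα, β, hβ, hαβ⟩ := hα
  refine Gal3.of_unit (α := ⟨α, hα⟩) ?_ ?_ ?_ ?_
  · intro b
    exact Subtype.ext ((gal3_RE (v := v) h).cube b.1)
  · intro x y hxy
    exact Subtype.ext (strE_injective (congrArg Subtype.val hxy))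
  · intro b hb
    obtain ⟨a, ha⟩ := (gal3_RE (v := v) h).fixed b.1 (congrArg Subtype.val hb)
    refine ⟨⟨a, ?_⟩, Subtype.ext ha⟩
    rw [← strE_mem (E := E)]
    have : strE E v a = b.1 := ha
    rw [this]
    exact b.2
  · exact IsUnit.of_mul_eq_one ⟨β, hβ⟩ (Subtype.ext hαβ)

theorem le_exp_neg_one {x : ℤᵐ⁰} (hx : x < 1) : x ≤ exp (-1 : ℤ) := by
  by_cases h0 : x = 0
  · rw [h0]; exact zero_le
  rw [← exp_log h0, ← exp_zero, exp_lt_exp] at hx
  rw [← exp_log h0, exp_le_exp]
  omega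

theorem isUnit_Oc_iff {F : Type*} [Field F] [NumberField F] {w : HeightOneSpectrum (𝓞 F)}
    {x : Oc (K := F) w} : IsUnit x ↔ Valued.v (x : w.adicCompletion F) = 1 := by
  constructor
  · intro h
    obtain ⟨y, hy⟩ := h.exists_right_inv
    have hy' : (x : w.adicCompletion F) * y = 1 := congrArg Subtype.val hy
    have h1 := congrArg (Valued.v : Valuation (w.adicCompletion F) ℤᵐ⁰) hy'
    rw [map_mul, map_one] at h1
    refine le_antisymm (mem_Oc.1 x.2) ?_
    rw [← h1]
    exact mul_le_of_le_one_right' (mem_Oc.1 y.2)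
  · intro h
    have hx : (x : w.adicCompletion F) ≠ 0 := by
      intro h0
      rw [h0, map_zero] at h
      exact zero_ne_one h
    refine IsUnit.of_mul_eq_one ⟨(x : w.adicCompletion F)⁻¹, ?_⟩ (Subtype.ext ?_)
    · rw [mem_Oc, map_inv₀, h, inv_one]
    · exact mul_inv_cancel₀ hx

theorem mem_maximalIdeal_Oc {F : Type*} [Field F] [NumberField F] {w : HeightOneSpectrum (𝓞 F)}
    {x : Oc (K := F) w} : x ∈ maximalIdeal (Oc (K := F) w) ↔
      Valued.v (x : w.adicCompletion F) ≤ exp (-1 : ℤ) := by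
  rw [mem_maximalIdeal, mem_nonunits_iff, isUnit_Oc_iff]
  constructor
  · intro h
    exact le_exp_neg_one (lt_of_le_of_ne (mem_Oc.1 x.2) h)
  · intro h h1
    rw [h1, ← exp_zero, exp_le_exp] at h
    norm_num at h

/-- `v` is unramified -/
theorem ram_eq_one {σ : E ≃ₐ[k] E} (h : Gal3 σ)
    (hα : ∃ α ∈ OE E v, ∃ β ∈ OE E v, (α - sHom v σ α) * β = 1)
    [Subsingleton (Fib E v)] (w : Fib E v) : v.asIdeal.ramificationIdx' w.1.asIdeal = 1 := by
  let _ := algO (E := E) v
  have hloc : IsLocalRing (OE E v) := isLocalRing_OE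
  have hG := gal3_sO h hα
  obtain ⟨ϖ, hϖ⟩ := exists_unif v k
  obtain ⟨ϖ', hϖ'⟩ := exists_unif w.1 E
  have hv := valued_ext (above_fib w) ϖ
  have he0 := (above_fib w).1
  set e := v.asIdeal.ramificationIdx' w.1.asIdeal with he
  have hmax : maximalIdeal (Oc (K := k) v) ≤
      Ideal.span {(⟨ϖ, unif_mem hϖ⟩ : Oc (K := k) v)} := by
    intro x hx
    rw [← pow_one (Ideal.span _), mem_span_pow_iff hϖ]
    exact mem_maximalIdeal_Oc.1 hx
  set b := (evB w).symm ⟨ϖ', unif_mem hϖ'⟩ with hb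
  have hbm : b ∈ maximalIdeal (OE E v) := by
    rw [mem_maximalIdeal, mem_nonunits_iff]
    intro hu
    have h1 := hu.map (evB w)
    rw [hb, RingEquiv.apply_symm_apply, isUnit_Oc_iff] at h1
    change Valued.v ϖ' = 1 at h1
    rw [hϖ', ← exp_zero, exp_inj] at h1
    norm_num at h1
  rw [hG.maximalIdeal_eq] at hbm
  have h2 := Ideal.map_mono (f := algebraMap (Oc (K := k) v) (OE E v)) hmax hbm
  rw [Ideal.map_span, Set.image_singleton, Ideal.mem_span_singleton'] at h2
  obtain ⟨a, ha⟩ := h2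
  have h3 : (evB w a : w.1.adicCompletion E) * ext (above_fib w) ϖ = ϖ' := by
    have h4 := congrArg (fun x => (evB w x : w.1.adicCompletion E)) ha
    simp only [hb, RingEquiv.apply_symm_apply] at h4
    rw [← h4]
    rfl
  have h5 := congrArg (Valued.v : Valuation (w.1.adicCompletion E) ℤᵐ⁰) h3
  rw [map_mul, hv, hϖ, hϖ', exp_neg_natCast] at h5
  have h6 : exp (-1 : ℤ) ≤ exp (-(e : ℤ)) := by
    rw [← h5]
    exact mul_le_of_le_one_left' (mem_Oc.1 (evB w a).2)
  rw [exp_le_exp] at h6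
  omega

/-- **Inert unramified places.** -/
theorem unrR {σ : E ≃ₐ[k] E} (h : Gal3 σ) (hf : IsField (RE E v))
    (hα : ∃ α ∈ OE E v, ∃ β ∈ OE E v, (α - sHom v σ α) * β = 1)
    {ϖ : v.adicCompletion k} (hϖ : Valued.v ϖ = exp (-1 : ℤ)) :
    UnrR (sAlg v σ) (Oc v) (OE E v) ϖ := by
  have hsub := subsingleton_fib hf
  obtain ⟨w⟩ := (inferInstance : Nonempty (Fib E v))
  have he := ram_eq_one h hα w
  have hv : Valued.v (ext (above_fib w) ϖ) = exp (-1 : ℤ) := by
    rw [valued_ext, he, pow_one, hϖ]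
  refine ⟨hf, gal3_RE h, fun x => strE_mem, fun x hx => sHom_mem σ hx, unif_mem hϖ,
    unif_ne_zero hϖ, ?_, ?_, hα, isAdicComplete hϖ, ?_⟩
  · intro y hy hy'
    have h1 := congrArg (Valued.v : Valuation (v.adicCompletion k) ℤᵐ⁰) hy'
    rw [map_mul, hϖ, map_one] at h1
    have h2 : (1 : ℤᵐ⁰) ≤ exp (-1 : ℤ) := by
      rw [← h1]
      exact mul_le_of_le_one_right' (mem_Oc.1 hy)
    rw [← exp_zero, exp_le_exp] at h2
    norm_num at h2
  · intro x hx
    have hxw : x w ≠ 0 := by
      intro h0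
      exact hx (funext fun w' => by rw [Subsingleton.elim w' w]; exact h0)
    have hx0 : Valued.v (x w) ≠ 0 := (Valuation.ne_zero_iff _).2 hxw
    obtain ⟨n, hn⟩ : ∃ n : ℤ, Valued.v (x w) = exp n := ⟨_, (exp_log hx0).symm⟩
    have hp : ∀ w', strE E v ϖ w' ≠ 0 := fun w' => by
      rw [strE_apply, Ne, map_eq_zero]
      exact unif_ne_zero hϖ
    have hx' : ∀ w', x w' ≠ 0 := fun w' => by rw [Subsingleton.elim w' w]; exact hxw
    have hvu : ∀ w', Valued.v ((strE E v ϖ w') ^ n.toNat * x w' /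
        (strE E v ϖ w') ^ (-n).toNat) = 1 := by
      intro w'
      rw [Subsingleton.elim w' w, strE_apply, map_div₀, map_mul, map_pow, map_pow, hv, hn,
        exp_neg_natCast, exp_neg_natCast, ← exp_add, ← exp_sub, ← exp_zero, exp_inj]
      omega
    refine ⟨(-n).toNat, n.toNat, fun w' => (strE E v ϖ w') ^ n.toNat * x w' /
      (strE E v ϖ w') ^ (-n).toNat, fun w' => (hvu w').le, fun w' =>
      ((strE E v ϖ w') ^ n.toNat * x w' / (strE E v ϖ w') ^ (-n).toNat)⁻¹, fun w' => ?_, ?_, ?_⟩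
    · rw [mem_Oc, map_inv₀, hvu, inv_one]
    · funext w'
      have h1 := hp w'
      have h2 := hx' w'
      exact mul_inv_cancel₀ (by positivity)
    · funext w'
      have h1 := hp w'
      change (strE E v ϖ w') ^ n.toNat * x w' = (strE E v ϖ w') ^ (-n).toNat *
        ((strE E v ϖ w') ^ n.toNat * x w' / (strE E v ϖ w') ^ (-n).toNat)
      field_simp
  · have hfin := finite_quot hv
    refine Finite.of_equiv _ (Ideal.quotientEquiv
      (Ideal.span {(⟨ext (above_fib w) ϖ, unif_mem hv⟩ : Oc (K := E) w.1)})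
      (Ideal.span {(⟨strE E v ϖ, strE_mem.2 (unif_mem hϖ)⟩ : OE E v)}) (evB w).symm ?_).toEquiv
    rw [Ideal.map_span, Set.image_singleton]
    congr 2
    apply (evB w).injective
    rw [RingEquiv.coe_toRingHom, RingEquiv.apply_symm_apply]
    rfl

theorem map_mem_PO {σ : E ≃ₐ[k] E} : ∀ g ∈ Glob.PO (OE E v),
    Matrix.ProjGenLinGroup.map (sEquiv v σ : RE E v →+* RE E v) g ∈ Glob.PO (OE E v) :=
  UnrR.sig_mem_PO (s := sAlg v σ) fun _ hx => sHom_mem σ hx

end Fermat.Agent.LT.Unit

namespace Fermat.Agent.LT.Unit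

open Glob Loc

universe u t

variable {k : Type u} [Field k] [NumberField k] {E : Type u} [Field E] [NumberField E]
  [Algebra k E]

/-- **Matching of the unit elements at the unramified nonsplit places.** -/
theorem isMatchU_inert {v : HeightOneSpectrum (𝓞 k)} {σ : E ≃ₐ[k] E} (h : Gal3 σ)
    (hf : IsField (RE E v)) (hα : ∃ α ∈ OE E v, ∃ β ∈ OE E v, (α - sHom v σ α) * β = 1) :
    IsMatchU.{u, t} (strE E v) (sEquiv v σ : RE E v →+* RE E v) map_mem_PO
      (BiInv.ind (Glob.PO (OE E v))) (BiInv.ind (Glob.PO (Oc v))) := by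
  obtain ⟨ϖ, hϖ⟩ := exists_unif v k
  exact (unrR h hf hα hϖ).isMatchU map_mem_PO

/-- the condition is satisfied almost everywhere -/
theorem eventually_unit {σ : E ≃ₐ[k] E} (h : Gal3 σ) : ∀ᶠ v : HeightOneSpectrum (𝓞 k) in cofinite,
    ∃ α ∈ OE E v, ∃ β ∈ OE E v, (α - sHom v σ α) * β = 1 := by
  obtain ⟨α, hα⟩ := UnrR.ne_one h
  have h0 : α - σ α ≠ 0 := sub_ne_zero.2 hα.symm
  filter_upwards [(locE k E).eventually_mem α, (locE k E).eventually_mem (α - σ α)⁻¹] with v h1 h2
  refine ⟨locHom E v α, h1, locHom E v (α - σ α)⁻¹, h2, ?_⟩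
  rw [sHom_loc, ← map_sub, ← map_mul, mul_inv_cancel₀ h0, map_one]

theorem eventually_isMatchU {σ : E ≃ₐ[k] E} (h : Gal3 σ) :
    ∀ᶠ v : HeightOneSpectrum (𝓞 k) in cofinite, IsField (RE E v) →
    IsMatchU.{u, t} (strE E v) (sEquiv v σ : RE E v →+* RE E v) map_mem_PO
      (BiInv.ind (Glob.PO (OE E v))) (BiInv.ind (Glob.PO (Oc v))) := by
  filter_upwards [eventually_unit h] with v hv hf
  exact isMatchU_inert h hf hv

end Fermat.Agent.LT.Unit
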