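import Fermat.Agent.LT.Glob.Ext

/-!
# The ring of integers of a completion
-/

set_option autoImplicit false

open Filter IsDedekindDomain IsDedekindDomain.HeightOneSpectrum WithZero NumberField
open scoped Topology

namespace Fermat.Agent.LT.Unit

open Glob

section

variable {R : Type*} [CommRing R] [IsDedekindDomain R] {K : Type*} [Field K] [Algebra R K]
  [IsFractionRing R K] {v : HeightOneSpectrum R}

theorem exists_unif (v : HeightOneSpectrum R) (K : Type*) [Field K] [Algebra R K]
    [IsFractionRing R K] : ∃ ϖ : v.adicCompletion K, Valued.v ϖ = exp (-1 : ℤ) := by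
  obtain ⟨c, -, hc⟩ := LT.Fin.exists_valuation_eq (K := K) v (-1 : ℤ)
  exact ⟨algebraMap K _ c, by rw [valued_algebraMap, hc]⟩

theorem unif_ne_zero {ϖ : v.adicCompletion K} (h : Valued.v ϖ = exp (-1 : ℤ)) : ϖ ≠ 0 := by
  rintro rfl
  rw [map_zero] at h
  exact exp_ne_zero h.symm

theorem unif_mem {ϖ : v.adicCompletion K} (h : Valued.v ϖ = exp (-1 : ℤ)) : ϖ ∈ Oc v := by
  rw [mem_Oc, h, ← exp_zero, exp_le_exp]
  norm_num

theorem exp_neg_natCast (n : ℕ) : (exp (-1 : ℤ)) ^ n = exp (-(n : ℤ)) := by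
  rw [← exp_nsmul]
  simp

theorem valued_unif_pow {ϖ : v.adicCompletion K} (h : Valued.v ϖ = exp (-1 : ℤ)) (n : ℕ) :
    Valued.v (ϖ ^ n) = exp (-(n : ℤ)) := by
  rw [map_pow, h, exp_neg_natCast]

theorem mem_span_pow_iff {ϖ : v.adicCompletion K} (h : Valued.v ϖ = exp (-1 : ℤ)) (n : ℕ)
    (x : Oc (K := K) v) : x ∈ (Ideal.span {(⟨ϖ, unif_mem h⟩ : Oc (K := K) v)}) ^ n ↔
      Valued.v (x : v.adicCompletion K) ≤ exp (-(n : ℤ)) := by
  have h0 := unif_ne_zero h
  rw [Ideal.span_singleton_pow, Ideal.mem_span_singleton']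
  constructor
  · rintro ⟨a, rfl⟩
    change Valued.v ((a : v.adicCompletion K) * ϖ ^ n) ≤ _
    rw [map_mul, valued_unif_pow h]
    exact mul_le_of_le_one_left' (mem_Oc.1 a.2)
  · intro hx
    refine ⟨⟨(x : v.adicCompletion K) / ϖ ^ n, ?_⟩, Subtype.ext ?_⟩
    · rw [mem_Oc, map_div₀, valued_unif_pow h]
      exact (div_le_one₀ (by simp)).2 hx
    · change (x : v.adicCompletion K) / ϖ ^ n * ϖ ^ n = x
      field_simp

theorem isAdicComplete {ϖ : v.adicCompletion K} (h : Valued.v ϖ = exp (-1 : ℤ)) :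
    IsAdicComplete (Ideal.span {(⟨ϖ, unif_mem h⟩ : Oc (K := K) v)}) (Oc (K := K) v) := by
  have key := mem_span_pow_iff h
  set I := Ideal.span {(⟨ϖ, unif_mem h⟩ : Oc (K := K) v)} with hI
  have hs : ∀ (n : ℕ) (x y : Oc (K := K) v),
      x ≡ y [SMOD (I ^ n • ⊤ : Submodule (Oc (K := K) v) (Oc (K := K) v))] ↔
      Valued.v ((x : v.adicCompletion K) - y) ≤ exp (-(n : ℤ)) := by
    intro n x y
    rw [SModEq.sub_mem, smul_eq_mul, Ideal.mul_top, key]
    rfl
  refine { haus' := fun x hx => ?_, prec' := fun f hf => ?_ }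
  · simp only [hs] at hx
    apply Subtype.ext
    change (x : v.adicCompletion K) = 0
    by_contra hx0
    obtain ⟨n, hn⟩ := exists_exp_le ((Valuation.ne_zero_iff (Valued.v : Valuation
      (v.adicCompletion K) ℤᵐ⁰)).2 hx0)
    have h1 := hx (n + 1)
    have h2 : ((0 : Oc (K := K) v) : v.adicCompletion K) = 0 := rfl
    rw [h2, sub_zero] at h1
    have := hn.trans h1
    rw [exp_le_exp] at this
    push_cast at this
    omega
  · simp only [hs] at hf ⊢
    have hc : CauchySeq fun n => (f n : v.adicCompletion K) := by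
      rw [cauchySeq_iff]
      intro U hU
      rw [uniformity_eq_comap_nhds_zero, mem_comap] at hU
      obtain ⟨V, hV, hVU⟩ := hU
      obtain ⟨n, hn⟩ := exists_ball_subset hV
      refine ⟨n, fun a ha b hb => hVU (hn ?_)⟩
      change Valued.v ((f b : v.adicCompletion K) - f a) ≤ exp (-(n : ℤ))
      have e : (f b : v.adicCompletion K) - f a = (f n - f a) - (f n - f b) := by ring
      rw [e]
      exact (Valuation.map_sub _ _ _).trans (max_le (hf ha) (hf hb))
    obtain ⟨L, hL⟩ := cauchySeq_tendsto_of_complete hc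
    have hL' : ∀ n : ℕ, Valued.v ((f n : v.adicCompletion K) - L) ≤ exp (-(n : ℤ)) := by
      intro n
      have h1 : ∀ᶠ m in atTop, (f m : v.adicCompletion K) - L ∈
          {x : v.adicCompletion K | Valued.v x ≤ exp (-(n : ℤ))} := by
        have h2 : Tendsto (fun m => (f m : v.adicCompletion K) - L) atTop (𝓝 0) := by
          rw [← sub_self L]
          exact hL.sub_const L
        exact h2 (ball_mem_nhds (valued_unif_pow h n))
      obtain ⟨m, hm, hmn⟩ := (h1.and (eventually_ge_atTop n)).exists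
      have e : (f n : v.adicCompletion K) - L = (f n - f m) + (f m - L) := by ring
      rw [e]
      exact (Valuation.map_add _ _ _).trans (max_le (hf hmn) hm)
    refine ⟨⟨L, ?_⟩, fun n => hL' n⟩
    rw [mem_Oc]
    have e : L = f 0 - (f 0 - L) := by ring
    rw [e]
    have h0 := hL' 0
    rw [Nat.cast_zero, neg_zero, exp_zero] at h0
    exact (Valuation.map_sub _ _ _).trans (max_le (mem_Oc.1 (f 0).2) h0)

end

section NumberField

variable {F : Type*} [Field F] [NumberField F] {v : HeightOneSpectrum (𝓞 F)}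

/-- integers approximate -/
theorem exists_int_approx (x : v.adicCompletion F) (hx : x ∈ Oc v) (n : ℕ) :
    ∃ r : 𝓞 F, Valued.v (algebraMap F (v.adicCompletion F) r - x) ≤ exp (-(n : ℤ)) := by
  classical
  obtain ⟨a, ha, ha'⟩ := LT.Fin.exists_approx {v} (Function.update 0 v x) n
  have h1 := ha v (Finset.mem_singleton_self v)
  rw [Function.update_self] at h1
  have hint : ∀ w : HeightOneSpectrum (𝓞 F), w.valuation F a ≤ 1 := by
    intro w
    by_cases hw : w = v
    · subst hw
      rw [← valued_algebraMap]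
      have e : algebraMap F (w.adicCompletion F) a = x + (algebraMap F _ a - x) := by ring
      rw [e]
      refine (Valuation.map_add _ _ _).trans (max_le (mem_Oc.1 hx) (h1.trans ?_))
      rw [← exp_zero, exp_le_exp]
      omega
    · exact ha' w (by simpa using hw)
  obtain ⟨r, hr⟩ := HeightOneSpectrum.mem_integers_of_valuation_le_one F a hint
  exact ⟨r, by rw [← hr] at h1; exact h1⟩

theorem finite_quot {ϖ : v.adicCompletion F} (h : Valued.v ϖ = exp (-1 : ℤ)) :
    Finite (Oc (K := F) v ⧸ Ideal.span {(⟨ϖ, unif_mem h⟩ : Oc (K := F) v)}) := by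
  have hfin : Finite (𝓞 F ⧸ v.asIdeal) :=
    Ideal.finiteQuotientOfFreeOfNeBot v.asIdeal v.ne_bot
  have hmem : ∀ r : 𝓞 F, algebraMap F (v.adicCompletion F) r ∈ Oc v := by
    intro r
    rw [mem_Oc, valued_algebraMap]
    exact v.valuation_le_one r
  let φ : 𝓞 F →+* Oc (K := F) v := ((algebraMap F (v.adicCompletion F)).comp
    (algebraMap (𝓞 F) F)).codRestrict _ hmem
  set I := Ideal.span {(⟨ϖ, unif_mem h⟩ : Oc (K := F) v)} with hI
  have hker : ∀ r ∈ v.asIdeal, (Ideal.Quotient.mk I).comp φ r = 0 := by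
    intro r hr
    rw [RingHom.comp_apply, Ideal.Quotient.eq_zero_iff_mem, ← pow_one I, mem_span_pow_iff h]
    change Valued.v (algebraMap F (v.adicCompletion F) r) ≤ _
    rw [valued_algebraMap]
    have h1 : v.valuation F (algebraMap (𝓞 F) F r) = v.intValuation r :=
      v.valuation_of_algebraMap r
    exact h1.trans_le ((v.intValuation_le_pow_iff_mem r 1).2 (by rwa [pow_one]))
  refine Finite.of_surjective (Ideal.Quotient.lift v.asIdeal ((Ideal.Quotient.mk I).comp φ) hker) ?_
  intro y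
  obtain ⟨x, rfl⟩ := Ideal.Quotient.mk_surjective y
  obtain ⟨r, hr⟩ := exists_int_approx x.1 x.2 1
  refine ⟨Ideal.Quotient.mk _ r, ?_⟩
  rw [Ideal.Quotient.lift_mk, RingHom.comp_apply, Ideal.Quotient.eq, ← pow_one I,
    mem_span_pow_iff h]
  exact hr

end NumberField

end Fermat.Agent.LT.Unit
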