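import Fermat.Agent.LT.Unit.Match
import Fermat.Agent.LT.Loc.Match
import Fermat.Agent.LT.Glob.Loc

/-!
# The unit element at unramified nonsplit places: local correspondence
-/

set_option autoImplicit false

open IsLocalRing Matrix
open scoped MatrixGroups

universe u t

namespace Fermat.Agent.LT.Unit

open Tw Loc

section abstract_

variable {G : Type*} [Group G]

/-- a correspondence from an equivariant injection -/
noncomputable def corrOfInj {T : Type t} [Group T] {Y : Type*} {Y' : Type u} [MulAction T Y]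
    [MulAction T Y'] {φ : Y → ℂ} {φ' : Y' → ℂ} (S : Set Y') (hS : ∀ (t : T), ∀ x ∈ S, t • x ∈ S)
    (b : Y' → Y) (hb : ∀ (t : T), ∀ x ∈ S, b (t • x) = t • b x) (hinj : Set.InjOn b S)
    (h1 : ∀ y, (∃ x ∈ S, b x = y) → φ y = 1) (h0 : ∀ y, (¬ ∃ x ∈ S, b x = y) → φ y = 0)
    (h1' : ∀ x ∈ S, φ' x = 1) (h0' : ∀ x, x ∉ S → φ' x = 0) : LocalCorr.{u} T Y Y' φ φ' where
  Z := S
  act :=
    { smul := fun t x => ⟨t • (x : Y'), hS t x x.2⟩
      one_smul := fun x => Subtype.ext (one_smul T (x : Y'))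
      mul_smul := fun s t x => Subtype.ext (mul_smul s t (x : Y')) }
  p x := b x
  q x := x
  p_smul t x := hb t x x.2
  q_smul _ _ := rfl
  w _ := 1
  w_smul _ _ := rfl
  fin_p y := by
    refine Set.Subsingleton.finite fun a ha c hc => Subtype.ext (hinj a.2 c.2 ?_)
    exact (show b a = y from ha).trans (show b c = y from hc).symm
  fin_q y := by
    refine Set.Subsingleton.finite fun a ha c hc => Subtype.ext ?_
    exact (show (a : Y') = y from ha).trans (show (c : Y') = y from hc).symm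
  sum_p y := by
    by_cases h : ∃ x ∈ S, b x = y
    · rw [h1 y h]
      obtain ⟨x, hx, hxy⟩ := h
      have e : {z : S | b z = y} = {⟨x, hx⟩} := by
        ext z
        rw [Set.mem_ofPred_eq, Set.mem_singleton_iff]
        constructor
        · intro hz
          exact Subtype.ext (hinj z.2 hx (hz.trans hxy.symm))
        · rintro rfl
          exact hxy
      rw [e, finsum_mem_singleton]
    · rw [h0 y h]
      have e : {z : S | b z = y} = ∅ := by
        rw [Set.eq_empty_iff_forall_notMem]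
        intro z hz
        exact h ⟨z, z.2, hz⟩
      rw [e, finsum_mem_empty]
  sum_q y := by
    by_cases h : y ∈ S
    · rw [h1' y h]
      have e : {z : S | (z : Y') = y} = {⟨y, h⟩} := by
        ext z
        rw [Set.mem_ofPred_eq, Set.mem_singleton_iff, Subtype.ext_iff]
      rw [e, finsum_mem_singleton]
    · rw [h0' y h]
      have e : {z : S | (z : Y') = y} = ∅ := by
        rw [Set.eq_empty_iff_forall_notMem]
        rintro z rfl
        exact h z.2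
      rw [e, finsum_mem_empty]

/-- `p` does not cancel -/
theorem corrOfInj_nc {T : Type t} [Group T] {Y : Type*} {Y' : Type u} [MulAction T Y]
    [MulAction T Y'] {φ : Y → ℂ} {φ' : Y' → ℂ} (S : Set Y') (hS : ∀ (t : T), ∀ x ∈ S, t • x ∈ S)
    (b : Y' → Y) (hb : ∀ (t : T), ∀ x ∈ S, b (t • x) = t • b x) (hinj : Set.InjOn b S)
    (h1 : ∀ y, (∃ x ∈ S, b x = y) → φ y = 1) (h0 : ∀ y, (¬ ∃ x ∈ S, b x = y) → φ y = 0)
    (h1' : ∀ x ∈ S, φ' x = 1) (h0' : ∀ x, x ∉ S → φ' x = 0) :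
    (corrOfInj S hS b hb hinj h1 h0 h1' h0').NC := by
  intro y
  change ∑ᶠ z ∈ {z : S | b z = y}, ‖(1 : ℂ)‖ = ‖φ y‖
  by_cases h : ∃ x ∈ S, b x = y
  · rw [h1 y h]
    obtain ⟨x, hx, hxy⟩ := h
    have e : {z : S | b z = y} = {⟨x, hx⟩} := by
      ext z
      rw [Set.mem_ofPred_eq, Set.mem_singleton_iff]
      constructor
      · intro hz
        exact Subtype.ext (hinj z.2 hx (hz.trans hxy.symm))
      · rintro rfl
        exact hxy
    rw [e, finsum_mem_singleton]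
  · rw [h0 y h]
    have e : {z : S | b z = y} = ∅ := by
      rw [Set.eq_empty_iff_forall_notMem]
      intro z hz
      exact h ⟨z, z.2, hz⟩
    rw [e, finsum_mem_empty, norm_zero]

theorem corrOfInj_based {T : Type t} [Group T] {Y : Type*} {Y' : Type u} [MulAction T Y]
    [MulAction T Y'] {φ : Y → ℂ} {φ' : Y' → ℂ} (S : Set Y') (hS : ∀ (t : T), ∀ x ∈ S, t • x ∈ S)
    (b : Y' → Y) (hb : ∀ (t : T), ∀ x ∈ S, b (t • x) = t • b x) (hinj : Set.InjOn b S)
    (h1 : ∀ y, (∃ x ∈ S, b x = y) → φ y = 1) (h0 : ∀ y, (¬ ∃ x ∈ S, b x = y) → φ y = 0)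
    (h1' : ∀ x ∈ S, φ' x = 1) (h0' : ∀ x, x ∉ S → φ' x = 0) {y₀ : Y} {x₀ : Y'} (hx₀ : x₀ ∈ S)
    (hxy : b x₀ = y₀) :
    (corrOfInj S hS b hb hinj h1 h0 h1' h0').Based y₀ x₀ :=
  ⟨⟨x₀, hx₀⟩, hxy, rfl, rfl, fun z hz => Subtype.ext (hinj z.2 hx₀ (hz.trans hxy.symm)),
    fun _ hz => Subtype.ext hz⟩

end abstract_

variable {K L : Type u} [Field K] [Field L] [Algebra K L] {σ : L ≃ₐ[K] L}
  {O : Subring K} {O' : Subring L} {ϖ : K}

theorem mk_mem_PO {F : Type*} [Field F] {R : Subring F} {g : GL (Fin 2) F} :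
    (ProjGenLinGroup.mk g : PGL(2, F)) ∈ Glob.PO R ↔ g ∈ ZKO R := by
  rw [Glob.mk_mem_PO_iff]
  constructor
  · rintro ⟨z, hz⟩
    refine ⟨z⁻¹, sc z * g, hz, ?_⟩
    rw [← mul_assoc, ← map_mul, inv_mul_cancel, map_one, one_mul]
  · rintro ⟨c, k, hk, rfl⟩
    refine ⟨c⁻¹, ?_⟩
    have : Glob.sc c⁻¹ * (sc c * k) = k := by
      change sc c⁻¹ * (sc c * k) = k
      rw [← mul_assoc, ← map_mul, inv_mul_cancel, map_one, one_mul]
    rw [this]
    exact hk

namespace Unr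

variable (D : Unr σ O O' ϖ)

include D

theorem map_mem_PO {g : PGL(2, K)} (hg : g ∈ Glob.PO O) :
    ProjGenLinGroup.map (algebraMap K L) g ∈ Glob.PO O' := by
  obtain ⟨k, hk, rfl⟩ := hg
  rw [ProjGenLinGroup.map_mk]
  exact Glob.mk_mem_PO (D.bc_KO.2 hk)

theorem sig_mem_PO : ∀ g ∈ Glob.PO O', ProjGenLinGroup.map (σ : L →+* L) g ∈ Glob.PO O' := by
  rintro _ ⟨k, hk, rfl⟩
  rw [ProjGenLinGroup.map_mk]
  exact Glob.mk_mem_PO (D.sig_KO hk)

/-- `x ↦ y ι(x)` -/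
def qbc (y : GL (Fin 2) L) : PGL(2, K) ⧸ Glob.PO O → PGL(2, L) ⧸ Glob.PO O' := fun x =>
  Quotient.liftOn' x (fun h => ((ProjGenLinGroup.mk y * ProjGenLinGroup.map (algebraMap K L) h :
    PGL(2, L)) : PGL(2, L) ⧸ Glob.PO O')) (by
    intro a b hab
    rw [QuotientGroup.leftRel_apply] at hab
    rw [QuotientGroup.eq]
    have h1 : (ProjGenLinGroup.mk y * ProjGenLinGroup.map (algebraMap K L) a)⁻¹ *
        (ProjGenLinGroup.mk y * ProjGenLinGroup.map (algebraMap K L) b) =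
        ProjGenLinGroup.map (algebraMap K L) (a⁻¹ * b) := by
      rw [map_mul, map_inv]; group
    rw [h1]
    exact D.map_mem_PO hab)

theorem qbc_mk (y : GL (Fin 2) L) (h : GL (Fin 2) K) :
    D.qbc y ((ProjGenLinGroup.mk h : PGL(2, K)) : PGL(2, K) ⧸ Glob.PO O) =
      ((ProjGenLinGroup.mk (y * bc h) : PGL(2, L)) : PGL(2, L) ⧸ Glob.PO O') := rfl

omit [Field L] [Algebra K L] D in
theorem tw_K (γ h : GL (Fin 2) K) :
    (BiInv.ind (Glob.PO O)).tw (MonoidHom.id _) (fun _ h => h) (ProjGenLinGroup.mk γ)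
      ((ProjGenLinGroup.mk h : PGL(2, K)) : PGL(2, K) ⧸ Glob.PO O) =
      (BiInv.ind (Glob.PO O)).f (ProjGenLinGroup.mk (h⁻¹ * γ * h)) := by
  rw [BiInv.tw_mk, map_mul, map_mul, map_inv]
  rfl

theorem tw_L (t g : GL (Fin 2) L) :
    (BiInv.ind (Glob.PO O')).tw (ProjGenLinGroup.map (σ : L →+* L)) D.sig_mem_PO (ProjGenLinGroup.mk t)
      ((ProjGenLinGroup.mk g : PGL(2, L)) : PGL(2, L) ⧸ Glob.PO O') =
      (BiInv.ind (Glob.PO O')).f (ProjGenLinGroup.mk (g⁻¹ * t * sg σ g)) := by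
  rw [BiInv.tw_mk, map_mul, map_mul, map_inv]
  rfl

/-- the fixed points -/
def fixK (O : Subring K) (γ : GL (Fin 2) K) : Set (PGL(2, K) ⧸ Glob.PO O) :=
  {x | (BiInv.ind (Glob.PO O)).tw (MonoidHom.id _) (fun _ h => h) (ProjGenLinGroup.mk γ) x ≠ 0}

omit D in
theorem mem_fixK {γ h : GL (Fin 2) K} :
    ((ProjGenLinGroup.mk h : PGL(2, K)) : PGL(2, K) ⧸ Glob.PO O) ∈ fixK O γ ↔
      h⁻¹ * γ * h ∈ ZKO O := by
  rw [fixK, Set.mem_ofPred_eq, BiInv.tw_mk, BiInv.ind_ne_zero, ← mk_mem_PO, map_mul, map_mul,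
    map_inv]
  rfl

omit D in
theorem exists_mk {F : Type*} [Field F] {U : Subgroup PGL(2, F)} (x : PGL(2, F) ⧸ U) :
    ∃ h : GL (Fin 2) F, ((ProjGenLinGroup.mk h : PGL(2, F)) : PGL(2, F) ⧸ U) = x := by
  induction x using QuotientGroup.induction_on with
  | H x =>
    obtain ⟨h, rfl⟩ := ProjGenLinGroup.mk_surjective x
    exact ⟨h, rfl⟩

/-- the correspondence of fixed points -/
noncomputable def corr {T : Type t} [Group T] (j : T →* GL (Fin 2) K) {γ : GL (Fin 2) K}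
    (hγ : NS (γ : Matrix (Fin 2) (Fin 2) K)) {X : GL (Fin 2) L}
    (hj : ∀ t, j t * γ = γ * j t) {y : GL (Fin 2) L} (hy : y ∈ tor (E := L) γ)
    (hfix : ∀ g : GL (Fin 2) L, g⁻¹ * X * sg σ g ∈ ZKO O' ↔
      ∃ h : GL (Fin 2) K, (∃ k ∈ ZKO O', g = y * bc h * k) ∧ h⁻¹ * γ * h ∈ ZKO O) :
    @LocalCorr.{u} T _ (PGL(2, L) ⧸ Glob.PO O') (PGL(2, K) ⧸ Glob.PO O)
      (actVia (jL (algebraMap K L) j) _) (actVia (jK j) _)
      ((BiInv.ind (Glob.PO O')).tw (ProjGenLinGroup.map (σ : L →+* L)) D.sig_mem_PO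
        (ProjGenLinGroup.mk X))
      ((BiInv.ind (Glob.PO O)).tw (MonoidHom.id _) (fun _ h => h) (ProjGenLinGroup.mk γ)) :=
  letI := actVia (jL (algebraMap K L) j) (Glob.PO O')
  letI := actVia (jK j) (Glob.PO O)
  corrOfInj (fixK O γ)
    (by
      intro t x hx
      obtain ⟨h, rfl⟩ := exists_mk x
      change ((ProjGenLinGroup.mk (j t * h) : PGL(2, K)) : PGL(2, K) ⧸ Glob.PO O) ∈ _
      rw [mem_fixK] at hx ⊢
      have : (j t * h)⁻¹ * γ * (j t * h) = h⁻¹ * γ * h := by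
        calc (j t * h)⁻¹ * γ * (j t * h) = h⁻¹ * (j t)⁻¹ * (γ * j t) * h := by group
          _ = _ := by rw [← hj]; group
      rwa [this])
    (D.qbc y)
    (by
      intro t x _
      obtain ⟨h, rfl⟩ := exists_mk x
      change ((ProjGenLinGroup.mk (y * bc (j t * h)) : PGL(2, L)) : PGL(2, L) ⧸ Glob.PO O') =
        ((ProjGenLinGroup.mk (bc (j t) * (y * bc h)) : PGL(2, L)) : PGL(2, L) ⧸ Glob.PO O')
      have h1 : bc (j t) ∈ tor (E := L) γ := by
        rw [mem_tor, ← map_mul, ← map_mul, hj]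
      have h2 : y * bc (j t * h) = bc (j t) * (y * bc h) := by
        rw [map_mul (bc : GL (Fin 2) K →* GL (Fin 2) L) (j t) h, ← mul_assoc, ← mul_assoc,
          tor_comm hγ hy h1]
      rw [h2])
    (by
      intro x₁ h₁ x₂ h₂ hx
      obtain ⟨a, rfl⟩ := exists_mk x₁
      obtain ⟨b, rfl⟩ := exists_mk x₂
      rw [D.qbc_mk, D.qbc_mk, QuotientGroup.eq, ← map_inv, ← map_mul, mk_mem_PO] at hx
      rw [QuotientGroup.eq, ← map_inv, ← map_mul, mk_mem_PO, ← D.ZKO_bc]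
      have : bc (a⁻¹ * b) = (y * bc a)⁻¹ * (y * bc b) := by
        rw [map_mul, map_inv]; group
      rwa [this])
    (by
      intro z hz
      obtain ⟨x, hx, rfl⟩ := hz
      obtain ⟨h, rfl⟩ := exists_mk x
      rw [D.qbc_mk, D.tw_L]
      apply BiInv.ind_of_mem
      rw [mk_mem_PO, hfix]
      exact ⟨h, ⟨1, one_mem _, by rw [mul_one]⟩, mem_fixK.1 hx⟩)
    (by
      intro z hz
      obtain ⟨g, rfl⟩ := exists_mk z
      rw [D.tw_L]
      apply BiInv.ind_of_not_mem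
      rw [mk_mem_PO, hfix]
      rintro ⟨h, ⟨k, hk, rfl⟩, hh⟩
      refine hz ⟨_, mem_fixK.2 hh, ?_⟩
      rw [D.qbc_mk, QuotientGroup.eq, ← map_inv, ← map_mul, mk_mem_PO]
      have : (y * bc h)⁻¹ * (y * bc h * k) = k := by group
      rw [this]
      exact hk)
    (by
      intro x hx
      obtain ⟨h, rfl⟩ := exists_mk x
      rw [BiInv.tw_mk]
      apply BiInv.ind_of_mem
      have := mem_fixK.1 hx
      rw [← mk_mem_PO, map_mul, map_mul, map_inv] at this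
      exact this)
    (by
      intro x hx
      by_contra h
      exact hx h)

/-- `p` does not cancel -/
theorem corr_nc {T : Type t} [Group T] (j : T →* GL (Fin 2) K) {γ : GL (Fin 2) K}
    (hγ : NS (γ : Matrix (Fin 2) (Fin 2) K)) {X : GL (Fin 2) L}
    (hj : ∀ t, j t * γ = γ * j t) {y : GL (Fin 2) L} (hy : y ∈ tor (E := L) γ)
    (hfix : ∀ g : GL (Fin 2) L, g⁻¹ * X * sg σ g ∈ ZKO O' ↔
      ∃ h : GL (Fin 2) K, (∃ k ∈ ZKO O', g = y * bc h * k) ∧ h⁻¹ * γ * h ∈ ZKO O) :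
    @LocalCorr.NC T _ _ _ (actVia (jL (algebraMap K L) j) _) (actVia (jK j) _) _ _
      (D.corr j hγ hj hy hfix) :=
  let _ := actVia (jL (algebraMap K L) j) (Glob.PO O')
  let _ := actVia (jK j) (Glob.PO O)
  corrOfInj_nc _ _ _ _ _ _ _ _ _

theorem corr_based {T : Type t} [Group T] (j : T →* GL (Fin 2) K) {γ : GL (Fin 2) K}
    (hγ : NS (γ : Matrix (Fin 2) (Fin 2) K)) {X : GL (Fin 2) L}
    (hj : ∀ t, j t * γ = γ * j t)
    (hfix : ∀ g : GL (Fin 2) L, g⁻¹ * X * sg σ g ∈ ZKO O' ↔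
      ∃ h : GL (Fin 2) K, (∃ k ∈ ZKO O', g = 1 * bc h * k) ∧ h⁻¹ * γ * h ∈ ZKO O)
    (hb : γ ∈ ZKO O) :
    @LocalCorr.Based T _ _ _ (actVia (jL (algebraMap K L) j) _) (actVia (jK j) _) _ _
      (D.corr j hγ hj (tor (E := L) γ).one_mem hfix)
      ((1 : PGL(2, L)) : PGL(2, L) ⧸ Glob.PO O') ((1 : PGL(2, K)) : PGL(2, K) ⧸ Glob.PO O) := by
  let _ := actVia (jL (algebraMap K L) j) (Glob.PO O')
  let _ := actVia (jK j) (Glob.PO O)
  refine corrOfInj_based _ _ _ _ _ _ _ _ _ ?_ ?_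
  · have := (mem_fixK (O := O) (γ := γ) (h := 1)).2 (by rw [inv_one, one_mul, mul_one]; exact hb)
    rwa [map_one] at this
  · have := D.qbc_mk 1 1
    rw [map_one, map_one, mul_one, map_one] at this
    exact this

omit [Field L] [Algebra K L] D in
theorem NS_of_disc {γ : GL (Fin 2) K} (h : (γ : Matrix (Fin 2) (Fin 2) K).trace ^ 2 -
    4 * (γ : Matrix (Fin 2) (Fin 2) K).det ≠ 0) : NS (γ : Matrix (Fin 2) (Fin 2) K) := by
  rw [ns_iff]
  by_contra hcon
  push Not at hcon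
  obtain ⟨h1, h2, h3⟩ := hcon
  apply h
  rw [Matrix.trace_fin_two, Matrix.det_fin_two, h1, h2, h3]
  ring

/-- **The unit element at an unramified nonsplit place.** -/
theorem isMatch : IsMatch.{u, t} (algebraMap K L) (σ : L →+* L) D.sig_mem_PO
    (BiInv.ind (Glob.PO O')) (BiInv.ind (Glob.PO O)) where
  corr {T} _ j γ X hdisc hN hj := by
    have hγ := NS_of_disc hdisc
    have hN' : nm σ X = bc γ := hN
    by_cases h : ∃ (c : Kˣ) (A : GL (Fin 2) K), γ = sc c * A ∧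
      (A : Matrix (Fin 2) (Fin 2) K).trace ∈ O ∧ GeneralLinearGroup.det A ∈ uO O
    · obtain ⟨c, A, hc, htr, hdet⟩ := h
      obtain ⟨y, hy, hfix⟩ := D.fixed_iff_general hγ hN' hc htr hdet
      exact ⟨D.corr j hγ hj hy hfix, D.corr_nc j hγ hj hy hfix⟩
    · have hfix : ∀ g : GL (Fin 2) L, g⁻¹ * X * sg σ g ∈ ZKO O' ↔
          ∃ h : GL (Fin 2) K, (∃ k ∈ ZKO O', g = 1 * bc h * k) ∧ h⁻¹ * γ * h ∈ ZKO O := by
        refine fun g => ⟨fun hg => ?_, ?_⟩
        · exact absurd (D.exists_normal' hN' hg) h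
        · rintro ⟨h', -, hh⟩
          exact absurd (D.exists_normal hh) h
      exact ⟨D.corr j hγ hj (tor (E := L) γ).one_mem hfix, D.corr_nc j hγ hj _ hfix⟩
  norm γ h hdisc hf := by
    rw [BiInv.ind_ne_zero, mk_mem_PO] at hf
    obtain ⟨c, A, hc, htr, hdet⟩ := D.exists_normal hf
    obtain ⟨u, x, y, hx, hy, hxy, hN⟩ := D.exists_norm htr hdet
    have huA : u ∈ tor (E := L) A := comm_of_nm σ D.cyc hN
    refine ⟨u, c⁻¹, ?_, ?_⟩
    · change u * bc γ = bc γ * u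
      have h2 : u * bc A = bc A * u := huA
      rw [hc, map_mul, bc_sc, ← mul_assoc, ← sc_comm, mul_assoc, h2, mul_assoc]
    · have h3 : GeneralLinearGroup.scalar (Fin 2) c⁻¹ * γ = A := by
        rw [hc]
        change sc c⁻¹ * (sc c * A) = A
        rw [← mul_assoc, ← map_mul, inv_mul_cancel, map_one, one_mul]
      rw [h3]
      exact hN

/-- the base points correspond to each other, in the good case -/
theorem exists_based {T : Type t} [Group T] (j : T →* GL (Fin 2) K) {γ : GL (Fin 2) K}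
    {X : GL (Fin 2) L} (hN : nm σ X = bc γ) (hj : ∀ t, j t * γ = γ * j t) (hγO : γ ∈ KO O)
    (hdisc : ∃ r : Kˣ, r ∈ uO O ∧ (r : K) = (γ : Matrix (Fin 2) (Fin 2) K).trace ^ 2 -
      4 * (γ : Matrix (Fin 2) (Fin 2) K).det) (hX : X ∈ ZKO O') :
    ∃ C : @LocalCorr.{u} T _ (PGL(2, L) ⧸ Glob.PO O') (PGL(2, K) ⧸ Glob.PO O)
      (actVia (jL (algebraMap K L) j) _) (actVia (jK j) _)
      ((BiInv.ind (Glob.PO O')).tw (ProjGenLinGroup.map (σ : L →+* L)) D.sig_mem_PO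
        (ProjGenLinGroup.mk X))
      ((BiInv.ind (Glob.PO O)).tw (MonoidHom.id _) (fun _ h => h) (ProjGenLinGroup.mk γ)),
      @LocalCorr.NC T _ _ _ (actVia (jL (algebraMap K L) j) _) (actVia (jK j) _) _ _ C ∧
      @LocalCorr.Based T _ _ _ (actVia (jL (algebraMap K L) j) _) (actVia (jK j) _) _ _ C
        ((1 : PGL(2, L)) : PGL(2, L) ⧸ Glob.PO O')
        ((1 : PGL(2, K)) : PGL(2, K) ⧸ Glob.PO O) := by
  obtain ⟨r, hr, hr'⟩ := hdisc
  have hγ : NS (γ : Matrix (Fin 2) (Fin 2) K) := NS_of_disc (by rw [← hr']; exact r.ne_zero)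
  have hloc := D.isLocalRing
  -- a unit among the entries
  have hgood : ∃ r : Kˣ, r ∈ uO O ∧ ((r : K) = γ 0 1 ∨ (r : K) = γ 1 0 ∨
      (r : K) = γ 0 0 - γ 1 1) := by
    have key : ∀ x : K, x ∈ O → (¬ ∃ r : Kˣ, r ∈ uO O ∧ (r : K) = x) →
        ∀ hx : algebraMap K L x ∈ O', (⟨algebraMap K L x, hx⟩ : O') ∈ maximalIdeal O' := by
      intro x hxO hx hx'
      rw [mem_maximalIdeal, mem_nonunits_iff]
      intro hu
      apply hx
      obtain ⟨z, hz⟩ := hu.exists_right_inv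
      have hz' : algebraMap K L x * (z : L) = 1 := congrArg Subtype.val hz
      have hx0 : x ≠ 0 := by
        rintro rfl
        rw [map_zero, zero_mul] at hz'
        exact zero_ne_one hz'
      refine ⟨Units.mk0 x hx0, ⟨hxO, ?_⟩, rfl⟩
      rw [Units.val_inv_eq_inv_val, Units.val_mk0, ← D.mem, map_inv₀,
        ← eq_inv_of_mul_eq_one_right hz']
      exact z.2
    by_contra hcon
    push Not at hcon
    have m01 := hγO.1 0 1
    have m10 := hγO.1 1 0
    have md := O.sub_mem (hγO.1 0 0) (hγO.1 1 1)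
    have k1 := key _ m01 (by rintro ⟨r, hr, h⟩; exact (hcon r hr).1 h) ((D.mem _).2 m01)
    have k2 := key _ m10 (by rintro ⟨r, hr, h⟩; exact (hcon r hr).2.1 h) ((D.mem _).2 m10)
    have k3 := key _ md (by rintro ⟨r, hr, h⟩; exact (hcon r hr).2.2 h) ((D.mem _).2 md)
    have hdm : (r : K) ∈ O := hr.1
    have k4 : (⟨algebraMap K L r, (D.mem _).2 hdm⟩ : O') ∈ maximalIdeal O' := by
      have e : (⟨algebraMap K L r, (D.mem _).2 hdm⟩ : O') =
          ⟨_, (D.mem _).2 md⟩ * ⟨_, (D.mem _).2 md⟩ +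
            4 * (⟨_, (D.mem _).2 m01⟩ * ⟨_, (D.mem _).2 m10⟩) := by
        apply Subtype.ext
        change algebraMap K L r = algebraMap K L (γ 0 0 - γ 1 1) * algebraMap K L (γ 0 0 - γ 1 1) +
          4 * (algebraMap K L (γ 0 1) * algebraMap K L (γ 1 0))
        rw [hr', Matrix.trace_fin_two, Matrix.det_fin_two]
        simp only [map_sub, map_mul, map_pow, map_add, map_ofNat]
        ring
      rw [e]
      exact Ideal.add_mem _ (Ideal.mul_mem_left _ _ k3)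
        (Ideal.mul_mem_left _ _ (Ideal.mul_mem_left _ _ k2))
    rw [mem_maximalIdeal, mem_nonunits_iff] at k4
    apply k4
    refine IsUnit.of_mul_eq_one ⟨algebraMap K L ((r⁻¹ : Kˣ) : K), (D.mem _).2 hr.2⟩
      (Subtype.ext ?_)
    change algebraMap K L r * algebraMap K L ((r⁻¹ : Kˣ) : K) = 1
    rw [← map_mul, Units.mul_inv, map_one]
  have hfix : ∀ g : GL (Fin 2) L, g⁻¹ * X * sg σ g ∈ ZKO O' ↔
      ∃ h : GL (Fin 2) K, (∃ k ∈ ZKO O', g = 1 * bc h * k) ∧ h⁻¹ * γ * h ∈ ZKO O := by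
    intro g
    have h1 : γ = sc (1 : Kˣ) * γ := by rw [map_one, one_mul]
    have := D.fixed_iff_good (c := 1) (A := γ) (t := X) (by rw [← h1]; exact hN) hX hγO hgood g
    rw [← h1] at this
    rw [this]
    simp only [one_mul]
  exact ⟨D.corr j hγ hj (tor (E := L) γ).one_mem hfix, D.corr_nc j hγ hj _ hfix,
    D.corr_based j hγ hj hfix (KO_le hγO)⟩

/-- **The unit element at an unramified nonsplit place.** -/
theorem isMatchU : IsMatchU.{u, t} (algebraMap K L) (σ : L →+* L) D.sig_mem_PO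
    (BiInv.ind (Glob.PO O')) (BiInv.ind (Glob.PO O)) where
  toIsMatch := D.isMatch
  based {T} _ j γ X _ hN hj hX hγ hr := by
    obtain ⟨r, hr, hr1⟩ := hr
    have hγO : γ ∈ KO O := hγ
    have hd : (γ : Matrix (Fin 2) (Fin 2) K).trace ^ 2 -
        4 * (γ : Matrix (Fin 2) (Fin 2) K).det ∈ O := by
      rw [Matrix.trace_fin_two, Matrix.det_fin_two]
      have h00 := hγO.1 0 0
      have h01 := hγO.1 0 1
      have h10 := hγO.1 1 0
      have h11 := hγO.1 1 1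
      exact O.sub_mem (pow_mem (O.add_mem h00 h11) 2) (O.mul_mem (ofNat_mem O 4)
        (O.sub_mem (O.mul_mem h00 h11) (O.mul_mem h01 h10)))
    have hr0 : (γ : Matrix (Fin 2) (Fin 2) K).trace ^ 2 -
        4 * (γ : Matrix (Fin 2) (Fin 2) K).det ≠ 0 := right_ne_zero_of_mul_eq_one hr1
    refine D.exists_based j hN hj hγO ⟨Units.mk0 _ hr0, ⟨hd, ?_⟩, rfl⟩ (KO_le hX)
    rw [Units.val_inv_eq_inv_val, Units.val_mk0, ← eq_inv_of_mul_eq_one_left hr1]
    exact hr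

end Unr

end Fermat.Agent.LT.Unit
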