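import Fermat.Agent.LT.Unit.Local

/-!
# Descent for `GL₂` along an unramified cubic extension, and the fixed points
-/

set_option autoImplicit false

open IsLocalRing Matrix

namespace Fermat.Agent.LT.Unit

open Tw

section matrixH90

variable {R : Type*} [CommRing R] (σ : R →+* R) (hσ : ∀ x, σ (σ (σ x)) = x) {α : R}

/-- the twisted trace of a vector -/
def vtr (c d : Matrix (Fin 2) (Fin 2) R) (v : Fin 2 → R) : Fin 2 → R :=
  v + c *ᵥ (fun i => σ (v i)) + d *ᵥ (fun i => σ (σ (v i)))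

include hσ in
theorem vtr_mem {c : Matrix (Fin 2) (Fin 2) R} (hc : c * c.map σ * (c.map σ).map σ = 1)
    (v : Fin 2 → R) :
    c *ᵥ (fun i => σ (vtr σ c (c * c.map σ) v i)) = vtr σ c (c * c.map σ) v := by
  have e1 : (fun i => σ (vtr σ c (c * c.map σ) v i)) =
      (fun i => σ (v i)) + (c.map σ) *ᵥ (fun i => σ (σ (v i))) +
        (c.map σ * (c.map σ).map σ) *ᵥ v := by
    funext i
    simp only [vtr, Pi.add_apply, map_add, Matrix.mulVec, dotProduct, map_sum, map_mul,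
      Matrix.map_apply, Matrix.mul_apply, hσ]
  rw [e1, Matrix.mulVec_add, Matrix.mulVec_add, Matrix.mulVec_mulVec, Matrix.mulVec_mulVec,
    ← mul_assoc, hc, Matrix.one_mulVec, vtr]
  abel

theorem vtr_recover {p0 p1 p2 : R} (h0 : p0 + p1 * α + p2 * α ^ 2 = 1)
    (h1 : p0 + p1 * σ α + p2 * σ α ^ 2 = 0) (h2 : p0 + p1 * σ (σ α) + p2 * σ (σ α) ^ 2 = 0)
    (c d : Matrix (Fin 2) (Fin 2) R) (v : Fin 2 → R) :
    p0 • vtr σ c d v + p1 • vtr σ c d (α • v) + p2 • vtr σ c d (α ^ 2 • v) = v := by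
  funext i
  simp only [vtr, Pi.add_apply, Pi.smul_apply, smul_eq_mul, Matrix.mulVec, dotProduct,
    Fin.sum_univ_two, map_mul, map_pow]
  linear_combination v i * h0 + (c i 0 * σ (v 0) + c i 1 * σ (v 1)) * h1 +
    (d i 0 * σ (σ (v 0)) + d i 1 * σ (σ (v 1))) * h2

/-- the matrix with columns `v`, `w` -/
def col2 (v w : Fin 2 → R) : Matrix (Fin 2) (Fin 2) R := !![v 0, w 0; v 1, w 1]

include hσ in
/-- **Hilbert 90** for `GL₂` of a local ring. -/
theorem matrix_h90 [IsLocalRing R] (hα : IsUnit (α - σ α)) {c : Matrix (Fin 2) (Fin 2) R}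
    (hc : c * c.map σ * (c.map σ).map σ = 1) :
    ∃ k : Matrix (Fin 2) (Fin 2) R, IsUnit k.det ∧ c * k.map σ = k := by
  by_contra hcon
  push Not at hcon
  have key : ∀ v w : Fin 2 → R, c *ᵥ (fun i => σ (v i)) = v → c *ᵥ (fun i => σ (w i)) = w →
      v 0 * w 1 - w 0 * v 1 ∈ maximalIdeal R := by
    intro v w hv hw
    rw [mem_maximalIdeal, mem_nonunits_iff]
    intro h
    refine hcon (col2 v w) ?_ ?_
    · rw [Matrix.det_fin_two]
      exact h
    · have hv0 := congrFun hv 0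
      have hv1 := congrFun hv 1
      have hw0 := congrFun hw 0
      have hw1 := congrFun hw 1
      simp only [Matrix.mulVec, dotProduct, Fin.sum_univ_two] at hv0 hv1 hw0 hw1
      ext i j
      fin_cases i <;> fin_cases j <;>
        simp only [col2, Matrix.mul_apply, Fin.sum_univ_two, Matrix.map_apply, Fin.zero_eta,
          Fin.mk_one, Fin.isValue, Matrix.of_apply, Matrix.cons_val', Matrix.cons_val_zero,
          Matrix.cons_val_one, Matrix.cons_val_fin_one]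
      · exact hv0
      · exact hw0
      · exact hv1
      · exact hw1
  obtain ⟨p0, p1, p2, h0, h1, h2⟩ := exists_lagrange σ hσ hα
  have hmem : ∀ v, c *ᵥ (fun i => σ (vtr σ c (c * c.map σ) v i)) = vtr σ c (c * c.map σ) v :=
    vtr_mem σ hσ hc
  set T := vtr σ c (c * c.map σ) with hT
  have hrec : ∀ v, p0 • T v + p1 • T (α • v) + p2 • T (α ^ 2 • v) = v :=
    vtr_recover σ h0 h1 h2 c _
  -- bilinearity
  have hbil : ∀ v w : Fin 2 → R, v 0 * w 1 - w 0 * v 1 ∈ maximalIdeal R := by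
    have step : ∀ v w : Fin 2 → R, c *ᵥ (fun i => σ (v i)) = v →
        v 0 * w 1 - w 0 * v 1 ∈ maximalIdeal R := by
      intro v w hv
      have e0 := congrFun (hrec w) 0
      have e1 := congrFun (hrec w) 1
      simp only [Pi.add_apply, Pi.smul_apply, smul_eq_mul] at e0 e1
      have e : v 0 * w 1 - w 0 * v 1 = p0 * (v 0 * T w 1 - T w 0 * v 1) +
          p1 * (v 0 * T (α • w) 1 - T (α • w) 0 * v 1) +
          p2 * (v 0 * T (α ^ 2 • w) 1 - T (α ^ 2 • w) 0 * v 1) := by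
        linear_combination v 1 * e0 - v 0 * e1
      rw [e]
      exact Ideal.add_mem _ (Ideal.add_mem _ (Ideal.mul_mem_left _ _ (key _ _ hv (hmem _)))
        (Ideal.mul_mem_left _ _ (key _ _ hv (hmem _)))) (Ideal.mul_mem_left _ _
        (key _ _ hv (hmem _)))
    intro v w
    have e0 := congrFun (hrec v) 0
    have e1 := congrFun (hrec v) 1
    simp only [Pi.add_apply, Pi.smul_apply, smul_eq_mul] at e0 e1
    have e : v 0 * w 1 - w 0 * v 1 = p0 * (T v 0 * w 1 - w 0 * T v 1) +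
        p1 * (T (α • v) 0 * w 1 - w 0 * T (α • v) 1) +
        p2 * (T (α ^ 2 • v) 0 * w 1 - w 0 * T (α ^ 2 • v) 1) := by
      linear_combination w 0 * e1 - w 1 * e0
    rw [e]
    exact Ideal.add_mem _ (Ideal.add_mem _ (Ideal.mul_mem_left _ _ (step _ _ (hmem _)))
      (Ideal.mul_mem_left _ _ (step _ _ (hmem _)))) (Ideal.mul_mem_left _ _ (step _ _ (hmem _)))
  have h1' : (1 : R) ∈ maximalIdeal R := by
    have := hbil ![1, 0] ![0, 1]
    simpa using this
  exact (Ideal.ne_top_iff_one _).mp (maximalIdeal.isMaximal R).ne_top h1'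

end matrixH90

variable {K L : Type*} [Field K] [Field L] [Algebra K L] {σ : L ≃ₐ[K] L}
  {O : Subring K} {O' : Subring L} {ϖ : K}

namespace Unr

variable (D : Unr σ O O' ϖ)

include D

/-- Hilbert 90 for `KO O'` -/
theorem exists_KO_h90 {κ : GL (Fin 2) L} (hκ : κ ∈ KO O') (hN : nm σ κ = 1) :
    ∃ k ∈ KO O', κ * sg σ k = k := by
  have := D.isLocalRing
  obtain ⟨α, hα⟩ := D.exists_alpha
  set c : Matrix (Fin 2) (Fin 2) O' := Matrix.of fun i j => ⟨κ i j, hκ.1 i j⟩ with hc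
  have hcm : c.map O'.subtype = (κ : Matrix (Fin 2) (Fin 2) L) := by
    ext i j
    rfl
  have hinj : Function.Injective (fun M : Matrix (Fin 2) (Fin 2) O' => M.map O'.subtype) :=
    Matrix.map_injective Subtype.val_injective
  have hc1 : c * c.map D.sr * (c.map D.sr).map D.sr = 1 := by
    apply hinj
    change (c * c.map D.sr * (c.map D.sr).map D.sr).map O'.subtype =
      (1 : Matrix (Fin 2) (Fin 2) O').map O'.subtype
    rw [Matrix.map_mul, Matrix.map_mul, Matrix.map_one _ (map_zero _) (map_one _)]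
    have h1 := congrArg (Units.val : GL (Fin 2) L → _) hN
    rw [nm, Units.val_mul, Units.val_mul, Units.val_one] at h1
    exact h1
  obtain ⟨k, hk, hk2⟩ := matrix_h90 D.sr D.sr_cube hα hc1
  have hdet : (k.map O'.subtype).det = (k.det : L) := by
    rw [← RingHom.mapMatrix_apply, ← RingHom.map_det]
    rfl
  obtain ⟨d, hd⟩ := hk.exists_right_inv
  have hd' : (k.det : L) * (d : L) = 1 := congrArg Subtype.val hd
  have hne : (k.map O'.subtype).det ≠ 0 := by
    rw [hdet]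
    exact left_ne_zero_of_mul_eq_one hd'
  refine ⟨GeneralLinearGroup.mkOfDetNeZero _ hne, mem_KO_iff.2 ⟨fun i j => (k i j).2, ?_⟩, ?_⟩
  · refine ⟨?_, ?_⟩
    · change (k.map O'.subtype).det ∈ O'
      rw [hdet]
      exact (k.det).2
    · have e : (((GeneralLinearGroup.det (GeneralLinearGroup.mkOfDetNeZero _ hne))⁻¹ : Lˣ) : L) =
          (d : L) := by
        rw [Units.val_inv_eq_inv_val]
        change ((k.map O'.subtype).det)⁻¹ = _
        rw [hdet]
        exact (eq_inv_of_mul_eq_one_right hd').symm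
      rw [e]
      exact d.2
  · apply Units.ext
    rw [Units.val_mul]
    have h2 := congrArg (fun M : Matrix (Fin 2) (Fin 2) O' => M.map O'.subtype) hk2
    simp only [Matrix.map_mul, hcm] at h2
    exact h2

/-- **Descent**: a `σ`-stable coset comes from `K`. -/
theorem exists_bc {g : GL (Fin 2) L} (hg : g⁻¹ * sg σ g ∈ KO O') :
    ∃ h : GL (Fin 2) K, ∃ k ∈ KO O', g = bc h * k := by
  have hN : nm σ (g⁻¹ * sg σ g) = 1 := by
    simp only [nm, map_mul, map_inv, sg_cube σ D.cyc]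
    group
  obtain ⟨k, hk, h1⟩ := D.exists_KO_h90 hg hN
  have h2 : sg σ (g * k) = g * k := by
    rw [map_mul]
    calc sg σ g * sg σ k = g * (g⁻¹ * sg σ g * sg σ k) := by group
      _ = g * k := by rw [h1]
  obtain ⟨h, hh⟩ := exists_bc_of_fixed σ D.cyc h2
  exact ⟨h, k⁻¹, (KO O').inv_mem hk, by rw [hh]; group⟩

end Unr

section fix

variable (O') in
/-- `Lˣ · GL₂(O')` -/
def ZKO : Subgroup (GL (Fin 2) L) where
  carrier := {g | ∃ c : Lˣ, ∃ k ∈ KO O', g = sc c * k}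
  one_mem' := ⟨1, 1, (KO O').one_mem, by simp⟩
  mul_mem' := by
    rintro _ _ ⟨c, k, hk, rfl⟩ ⟨c', k', hk', rfl⟩
    refine ⟨c * c', k * k', (KO O').mul_mem hk hk', ?_⟩
    rw [map_mul]
    calc sc c * k * (sc c' * k') = sc c * (k * sc c') * k' := by group
      _ = _ := by rw [← sc_comm]; group
  inv_mem' := by
    rintro _ ⟨c, k, hk, rfl⟩
    refine ⟨c⁻¹, k⁻¹, (KO O').inv_mem hk, ?_⟩
    rw [_root_.mul_inv_rev, ← map_inv, sc_comm]

theorem mem_ZKO {g : GL (Fin 2) L} : g ∈ ZKO O' ↔ ∃ c : Lˣ, ∃ k ∈ KO O', g = sc c * k := Iff.rfl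

theorem KO_le : KO O' ≤ ZKO O' := fun k hk => ⟨1, k, hk, by simp⟩

theorem sc_mem_ZKO (c : Lˣ) : sc c ∈ ZKO O' := ⟨c, 1, (KO O').one_mem, by simp⟩

/-- linear combinations -/
theorem conj_lin (g A : GL (Fin 2) L) {u : GL (Fin 2) L} {x y : L}
    (hu : (u : Matrix (Fin 2) (Fin 2) L) = x • (1 : Matrix (Fin 2) (Fin 2) L) +
      y • (A : Matrix (Fin 2) (Fin 2) L)) :
    ((g⁻¹ * u * g : GL (Fin 2) L) : Matrix (Fin 2) (Fin 2) L) =
      x • (1 : Matrix (Fin 2) (Fin 2) L) +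
        y • ((g⁻¹ * A * g : GL (Fin 2) L) : Matrix (Fin 2) (Fin 2) L) := by
  rw [Units.val_mul, Units.val_mul, hu, mul_add, add_mul, mul_smul_comm, smul_mul_assoc, mul_one,
    ← Units.val_mul, inv_mul_cancel, Units.val_one, mul_smul_comm, smul_mul_assoc,
    ← Units.val_mul, ← Units.val_mul]

theorem conj_mem_KO (g A : GL (Fin 2) L) {u : GL (Fin 2) L} {x y : L} (hx : x ∈ O')
    (hy : y ∈ O') (hu : (u : Matrix (Fin 2) (Fin 2) L) = x • (1 : Matrix (Fin 2) (Fin 2) L) +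
      y • (A : Matrix (Fin 2) (Fin 2) L)) (hdet : GeneralLinearGroup.det u ∈ uO O')
    (hA : g⁻¹ * A * g ∈ KO O') : g⁻¹ * u * g ∈ KO O' := by
  rw [mem_KO_iff]
  constructor
  · intro i j
    rw [conj_lin g A hu, Matrix.add_apply, Matrix.smul_apply, Matrix.smul_apply, smul_eq_mul,
      smul_eq_mul]
    refine O'.add_mem (O'.mul_mem hx ?_) (O'.mul_mem hy (hA.1 i j))
    rw [Matrix.one_apply]
    split_ifs
    · exact O'.one_mem
    · exact O'.zero_mem
  · rw [map_mul, map_mul, map_inv, mul_comm, mul_inv_cancel_left]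
    exact hdet

namespace Unr

variable (D : Unr σ O O' ϖ)

include D

omit [Field K] [Algebra K L] D in
theorem det_uO_of_KO {g : GL (Fin 2) L} (hg : g ∈ KO O') : GeneralLinearGroup.det g ∈ uO O' :=
  (mem_KO_iff.1 hg).2

/-- **fixed points of `u σ`** -/
theorem fixed_iff {A : GL (Fin 2) K} {u : GL (Fin 2) L} {x y : L} (hx : x ∈ O') (hy : y ∈ O')
    (hu : (u : Matrix (Fin 2) (Fin 2) L) = x • (1 : Matrix (Fin 2) (Fin 2) L) +
      y • ((bc A : GL (Fin 2) L) : Matrix (Fin 2) (Fin 2) L)) (hdA : GeneralLinearGroup.det A ∈ uO O)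
    {c1 : Lˣ} (hc1 : c1 ∈ uO O') (hN : nm σ u = sc c1 * bc A) (g : GL (Fin 2) L) :
    g⁻¹ * u * sg σ g ∈ ZKO O' ↔
      ∃ h : GL (Fin 2) K, (∃ k ∈ ZKO O', g = bc h * k) ∧ h⁻¹ * A * h ∈ KO O := by
  have hdu : GeneralLinearGroup.det u ∈ uO O' := by
    apply D.mem_uO_of_nu
    rw [← det_nm, hN, map_mul, det_sc]
    refine (uO O').mul_mem ((uO O').mul_mem hc1 hc1) ?_
    have : GeneralLinearGroup.det (bc (E := L) A) = bu (GeneralLinearGroup.det A) := by
      rw [bc, GeneralLinearGroup.map_det]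
      rfl
    rw [this, D.bu_uO]
    exact hdA
  constructor
  · rintro ⟨c, κ, hκ, h⟩
    -- the norm
    have h1 : g⁻¹ * nm σ u * g = sc (nu σ c) * nm σ κ := by
      rw [← nm_sc_mul, ← h]
      simp only [nm, map_mul, map_inv, sg_cube σ D.cyc]
      group
    have hnc : nu σ c ∈ uO O' := by
      apply D.mem_uO_of_pow two_ne_zero
      have h2 := congrArg GeneralLinearGroup.det h1
      rw [map_mul, map_mul, map_inv, map_mul, det_sc, mul_comm, mul_inv_cancel_left, det_nm] at h2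
      have h3 : (nu σ c) ^ 2 = nu σ (GeneralLinearGroup.det u) *
          (GeneralLinearGroup.det (nm σ κ))⁻¹ := by
        rw [h2, mul_inv_cancel_right, pow_two]
      rw [h3]
      exact (uO O').mul_mem ((uO O').mul_mem ((uO O').mul_mem hdu (D.sig_uO hdu))
        (D.sig_uO (D.sig_uO hdu))) ((uO O').inv_mem (det_uO_of_KO (D.nm_KO hκ)))
    have hc : c ∈ uO O' := D.mem_uO_of_nu hnc
    -- `A` preserves the lattice
    have hA : g⁻¹ * bc A * g ∈ KO O' := by
      have h2 : g⁻¹ * bc A * g = (sc c1)⁻¹ * (sc (nu σ c) * nm σ κ) := by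
        rw [← h1, hN]
        calc g⁻¹ * bc A * g = (sc c1)⁻¹ * (sc c1 * g⁻¹) * bc A * g := by group
          _ = (sc c1)⁻¹ * (g⁻¹ * (sc c1 * bc A) * g) := by rw [sc_comm c1 g⁻¹]; group
      rw [h2]
      exact (KO O').mul_mem ((KO O').inv_mem (sc_KO.2 hc1))
        ((KO O').mul_mem (sc_KO.2 hnc) (D.nm_KO hκ))
    have hgu : g⁻¹ * u * g ∈ KO O' := conj_mem_KO g (bc A) hx hy hu hdu hA
    have hσ : g⁻¹ * sg σ g ∈ KO O' := by
      have h2 : g⁻¹ * sg σ g = (g⁻¹ * u * g)⁻¹ * (g⁻¹ * u * sg σ g) := by group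
      rw [h2, h]
      exact (KO O').mul_mem ((KO O').inv_mem hgu) ((KO O').mul_mem (sc_KO.2 hc) hκ)
    obtain ⟨h', k, hk, hg⟩ := D.exists_bc hσ
    refine ⟨h', ⟨k, KO_le hk, hg⟩, ?_⟩
    rw [← D.bc_KO, map_mul, map_mul, map_inv]
    have h2 : (bc h')⁻¹ * bc A * bc h' = k * (g⁻¹ * bc A * g) * k⁻¹ := by rw [hg]; group
    rw [h2]
    exact (KO O').mul_mem ((KO O').mul_mem hk hA) ((KO O').inv_mem hk)
  · rintro ⟨h, ⟨k, ⟨c, κ, hκ, rfl⟩, rfl⟩, hA⟩
    have hA' : (bc h)⁻¹ * bc A * bc h ∈ KO O' := by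
      rw [← map_inv, ← map_mul, ← map_mul, D.bc_KO]
      exact hA
    have hgu : (bc h)⁻¹ * u * bc h ∈ KO O' := conj_mem_KO (bc h) (bc A) hx hy hu hdu hA'
    rw [map_mul, map_mul, sg_bc, sg_sc]
    have e : (bc h * (sc c * κ))⁻¹ * u * (bc h * (sc (su σ c) * sg σ κ)) =
        (sc c * κ)⁻¹ * ((bc h)⁻¹ * u * bc h) * sc (su σ c) * sg σ κ := by group
    rw [e]
    exact (ZKO O').mul_mem ((ZKO O').mul_mem ((ZKO O').mul_mem ((ZKO O').inv_mem
      ⟨c, κ, hκ, rfl⟩) (KO_le hgu)) (sc_mem_ZKO _)) (KO_le (D.sig_KO hκ))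

end Unr

end fix

end Fermat.Agent.LT.Unit
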