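import Fermat.Agent.LT.Unit.NormSurj
import Fermat.Agent.LT.Tw.Class

/-!
# Unramified cyclic cubic extensions: local lemmas for `GL₂`
-/

set_option autoImplicit false

open IsLocalRing Matrix

namespace Fermat.Agent.LT.Unit

open Tw

section subrings

variable {F : Type*} [Field F] (R : Subring F)

/-- the units of a subring -/
def uO : Subgroup Fˣ where
  carrier := {c | (c : F) ∈ R ∧ ((c⁻¹ : Fˣ) : F) ∈ R}
  one_mem' := ⟨by simp, by simp⟩
  mul_mem' := by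
    intro a b ha hb
    refine ⟨?_, ?_⟩
    · rw [Units.val_mul]; exact R.mul_mem ha.1 hb.1
    · rw [mul_inv, Units.val_mul]; exact R.mul_mem ha.2 hb.2
  inv_mem' := by
    intro a ha
    exact ⟨ha.2, by rw [inv_inv]; exact ha.1⟩

theorem mem_uO {c : Fˣ} : c ∈ uO R ↔ (c : F) ∈ R ∧ ((c⁻¹ : Fˣ) : F) ∈ R := Iff.rfl

/-- `GL₂` of a subring -/
def KO : Subgroup (GL (Fin 2) F) where
  carrier := {g | (∀ i j, g i j ∈ R) ∧ ∀ i j, (g⁻¹ : GL (Fin 2) F) i j ∈ R}
  one_mem' := by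
    have h : ∀ i j, (1 : GL (Fin 2) F) i j ∈ R := by
      intro i j
      rw [Units.val_one, Matrix.one_apply]
      split_ifs
      · exact R.one_mem
      · exact R.zero_mem
    exact ⟨h, by rw [inv_one]; exact h⟩
  mul_mem' := by
    have h : ∀ a b : GL (Fin 2) F, (∀ i j, a i j ∈ R) → (∀ i j, b i j ∈ R) →
        ∀ i j, (a * b) i j ∈ R := by
      intro a b ha hb i j
      rw [Units.val_mul, Matrix.mul_apply]
      exact R.sum_mem fun k _ => R.mul_mem (ha i k) (hb k j)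
    intro a b ha hb
    exact ⟨h a b ha.1 hb.1, by rw [_root_.mul_inv_rev]; exact h _ _ hb.2 ha.2⟩
  inv_mem' := by
    intro a ha
    exact ⟨ha.2, by rw [inv_inv]; exact ha.1⟩

theorem mem_KO {g : GL (Fin 2) F} :
    g ∈ KO R ↔ (∀ i j, g i j ∈ R) ∧ ∀ i j, (g⁻¹ : GL (Fin 2) F) i j ∈ R := Iff.rfl

variable {R}

theorem det_mem {A : Matrix (Fin 2) (Fin 2) F} (h : ∀ i j, A i j ∈ R) : A.det ∈ R := by
  rw [Matrix.det_fin_two]
  exact R.sub_mem (R.mul_mem (h _ _) (h _ _)) (R.mul_mem (h _ _) (h _ _))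

theorem mem_KO_iff {g : GL (Fin 2) F} :
    g ∈ KO R ↔ (∀ i j, g i j ∈ R) ∧ GeneralLinearGroup.det g ∈ uO R := by
  constructor
  · intro h
    refine ⟨h.1, det_mem h.1, ?_⟩
    rw [← map_inv]
    exact det_mem h.2
  · rintro ⟨h1, h2⟩
    refine ⟨h1, ?_⟩
    have e : ((g⁻¹ : GL (Fin 2) F) : Matrix (Fin 2) (Fin 2) F) =
        (((GeneralLinearGroup.det g)⁻¹ : Fˣ) : F) • (g : Matrix (Fin 2) (Fin 2) F).adjugate := by
      rw [Matrix.coe_units_inv, Matrix.inv_def, ← GeneralLinearGroup.val_det_apply,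
        Ring.inverse_unit]
    intro i j
    rw [e, Matrix.smul_apply, smul_eq_mul]
    refine R.mul_mem h2.2 ?_
    rw [Matrix.adjugate_fin_two]
    fin_cases i <;> fin_cases j
    · exact h1 1 1
    · exact R.neg_mem (h1 0 1)
    · exact R.neg_mem (h1 1 0)
    · exact h1 0 0

end subrings

variable {K L : Type*} [Field K] [Field L] [Algebra K L] {σ : L ≃ₐ[K] L}

/-- An unramified cyclic cubic extension of complete discretely valued fields with finite
residue fields. -/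
structure Unr (σ : L ≃ₐ[K] L) (O : Subring K) (O' : Subring L) (ϖ : K) : Prop where
  cyc : Cyc3 σ
  mem : ∀ x : K, algebraMap K L x ∈ O' ↔ x ∈ O
  sig : ∀ x ∈ O', σ x ∈ O'
  pmem : ϖ ∈ O
  pinv : ϖ⁻¹ ∉ O
  val : ∀ x : L, x ≠ 0 → ∃ n : ℤ, ∃ u : Lˣ, u ∈ uO O' ∧ x = algebraMap K L ϖ ^ n * u
  alp : ∃ α ∈ O', α - σ α ≠ 0 ∧ (α - σ α)⁻¹ ∈ O'
  comp : IsAdicComplete (Ideal.span {(⟨ϖ, pmem⟩ : O)}) O
  fin : Finite (O' ⧸ Ideal.span {(⟨algebraMap K L ϖ, (mem ϖ).2 pmem⟩ : O')})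

namespace Unr

variable {O : Subring K} {O' : Subring L} {ϖ : K} (D : Unr σ O O' ϖ)

include D

theorem pne : ϖ ≠ 0 := by
  rintro rfl
  apply D.pinv
  rw [_root_.inv_zero]
  exact O.zero_mem

theorem pinv' : (algebraMap K L ϖ)⁻¹ ∉ O' := by
  rw [← map_inv₀, D.mem]
  exact D.pinv

theorem pne' : algebraMap K L ϖ ≠ 0 := by
  rw [Ne, map_eq_zero]
  exact D.pne

theorem zpow_mem {n : ℤ} : algebraMap K L ϖ ^ n ∈ O' ↔ 0 ≤ n := by
  constructor
  · intro h
    by_contra hn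
    push Not at hn
    apply D.pinv'
    obtain ⟨m, rfl⟩ : ∃ m : ℕ, n = -(m : ℤ) - 1 := ⟨(-n - 1).toNat, by omega⟩
    have h1 : (algebraMap K L ϖ)⁻¹ =
        algebraMap K L ϖ ^ (-(m : ℤ) - 1) * algebraMap K L ϖ ^ m := by
      rw [← zpow_natCast, ← zpow_add₀ D.pne', ← _root_.zpow_neg_one]
      congr 1
      ring
    rw [h1]
    exact O'.mul_mem h (O'.pow_mem ((D.mem ϖ).2 D.pmem) m)
  · intro h
    obtain ⟨m, rfl⟩ := Int.eq_ofNat_of_zero_le h
    rw [zpow_natCast]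
    exact O'.pow_mem ((D.mem ϖ).2 D.pmem) m

theorem mem_of_pow {x : L} {k : ℕ} (hk : k ≠ 0) (hx : x ^ k ∈ O') : x ∈ O' := by
  by_cases h0 : x = 0
  · rw [h0]; exact O'.zero_mem
  obtain ⟨n, u, hu, rfl⟩ := D.val x h0
  rw [mul_pow, ← zpow_natCast, ← _root_.zpow_mul] at hx
  have h1 : algebraMap K L ϖ ^ (n * k) ∈ O' := by
    have h2 := O'.mul_mem hx (O'.pow_mem hu.2 k)
    rwa [mul_assoc, ← mul_pow, Units.mul_inv, one_pow, mul_one] at h2
  rw [D.zpow_mem] at h1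
  refine O'.mul_mem (D.zpow_mem.2 ?_) hu.1
  have : (0 : ℤ) < k := by positivity
  nlinarith

theorem mem_uO_of_pow {c : Lˣ} {k : ℕ} (hk : k ≠ 0) (hc : c ^ k ∈ uO O') : c ∈ uO O' := by
  refine ⟨D.mem_of_pow hk ?_, D.mem_of_pow hk ?_⟩
  · have := hc.1
    rwa [Units.val_pow_eq_pow_val] at this
  · have := hc.2
    rwa [← inv_pow, Units.val_pow_eq_pow_val] at this

theorem sig_uO {c : Lˣ} (hc : c ∈ uO O') : su σ c ∈ uO O' :=
  ⟨D.sig _ hc.1, by rw [← map_inv]; exact D.sig _ hc.2⟩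

theorem mem_uO_of_nu {c : Lˣ} (hc : nu σ c ∈ uO O') : c ∈ uO O' := by
  obtain ⟨n, u, hu, h⟩ := D.val c c.ne_zero
  have h1 : c = Units.mk0 _ D.pne' ^ n * u := by
    apply Units.ext
    rw [Units.val_mul, Units.val_zpow_eq_zpow_val, Units.val_mk0, h]
  have h2 : su σ (Units.mk0 _ D.pne' ^ n) = Units.mk0 _ D.pne' ^ n := by
    apply Units.ext
    rw [map_zpow, Units.val_zpow_eq_zpow_val, Units.val_zpow_eq_zpow_val, su_coe, Units.val_mk0,
      σ.commutes]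
  have h3 : nu σ c = (Units.mk0 _ D.pne' ^ n) ^ 3 * nu σ u := by
    rw [h1, nu_mul]
    congr 1
    rw [nu, h2, h2, pow_succ, pow_two]
  rw [h3] at hc
  have h4 : nu σ u ∈ uO O' := (uO O').mul_mem ((uO O').mul_mem hu (D.sig_uO hu))
    (D.sig_uO (D.sig_uO hu))
  have h5 := D.mem_uO_of_pow three_ne_zero (((uO O').mul_mem_cancel_right h4).1 hc)
  rw [h1]
  exact (uO O').mul_mem h5 hu

theorem sig_KO {g : GL (Fin 2) L} (hg : g ∈ KO O') : sg σ g ∈ KO O' :=
  ⟨fun i j => D.sig _ (hg.1 i j), fun i j => by rw [← map_inv]; exact D.sig _ (hg.2 i j)⟩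

theorem nm_KO {g : GL (Fin 2) L} (hg : g ∈ KO O') : nm σ g ∈ KO O' :=
  (KO O').mul_mem ((KO O').mul_mem hg (D.sig_KO hg)) (D.sig_KO (D.sig_KO hg))

theorem bc_KO {g : GL (Fin 2) K} : bc g ∈ KO O' ↔ g ∈ KO O := by
  rw [mem_KO, mem_KO, ← map_inv]
  simp only [bc_apply, D.mem]

theorem bu_uO {c : Kˣ} : bu c ∈ uO O' ↔ c ∈ uO O := by
  rw [mem_uO, mem_uO, ← map_inv, bu_coe, bu_coe, D.mem, D.mem]

omit [Field K] [Algebra K L] D in
theorem sc_KO {c : Lˣ} : sc c ∈ KO O' ↔ c ∈ uO O' := by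
  have key : ∀ c : Lˣ, (∀ i j, (sc c : GL (Fin 2) L) i j ∈ O') ↔ (c : L) ∈ O' := by
    intro c
    constructor
    · intro h
      have := h 0 0
      rwa [coe_sc, Matrix.smul_apply, Matrix.one_apply_eq, smul_eq_mul, mul_one] at this
    · intro h i j
      rw [coe_sc, Matrix.smul_apply, smul_eq_mul]
      refine O'.mul_mem h ?_
      rw [Matrix.one_apply]
      split_ifs
      · exact O'.one_mem
      · exact O'.zero_mem
  rw [mem_KO, mem_uO, ← map_inv, key, key]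

/-- the restriction of `σ` -/
def sr : O' →+* O' where
  toFun x := ⟨σ x, D.sig _ x.2⟩
  map_one' := Subtype.ext (map_one σ)
  map_mul' _ _ := Subtype.ext (map_mul σ _ _)
  map_zero' := Subtype.ext (map_zero σ)
  map_add' _ _ := Subtype.ext (map_add σ _ _)

/-- the inclusion -/
def ir : O →+* O' where
  toFun x := ⟨algebraMap K L x, (D.mem x).2 x.2⟩
  map_one' := Subtype.ext (map_one _)
  map_mul' _ _ := Subtype.ext (map_mul _ _ _)
  map_zero' := Subtype.ext (map_zero _)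
  map_add' _ _ := Subtype.ext (map_add _ _ _)

/-- the uniformiser -/
def po : O := ⟨ϖ, D.pmem⟩

theorem isUnit_or (x : O') : IsUnit x ∨ x ∈ Ideal.span {D.ir D.po} := by
  by_cases h0 : (x : L) = 0
  · right
    have : x = 0 := Subtype.ext h0
    rw [this]
    exact Ideal.zero_mem _
  obtain ⟨n, u, hu, h⟩ := D.val x h0
  have hn : algebraMap K L ϖ ^ n ∈ O' := by
    have h1 := O'.mul_mem x.2 hu.2
    rwa [h, mul_assoc, Units.mul_inv, mul_one] at h1
  rw [D.zpow_mem] at hn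
  obtain ⟨m, rfl⟩ := Int.eq_ofNat_of_zero_le hn
  rcases m with _ | m
  · left
    refine IsUnit.of_mul_eq_one ⟨_, hu.2⟩ (Subtype.ext ?_)
    change (x : L) * ((u⁻¹ : Lˣ) : L) = 1
    rw [h]
    simp
  · right
    rw [Ideal.mem_span_singleton]
    refine ⟨⟨algebraMap K L ϖ ^ m * u, O'.mul_mem (O'.pow_mem ((D.mem ϖ).2 D.pmem) m) hu.1⟩,
      Subtype.ext ?_⟩
    change (x : L) = algebraMap K L ϖ * (algebraMap K L ϖ ^ m * u)
    rw [h, zpow_natCast, pow_succ']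
    ring

theorem not_isUnit_ir : ¬ IsUnit (D.ir D.po) := by
  intro h
  obtain ⟨y, hy⟩ := h.exists_right_inv
  apply D.pinv'
  have h1 := congrArg (Subtype.val : O' → L) hy
  change algebraMap K L ϖ * (y : L) = 1 at h1
  rw [← eq_inv_of_mul_eq_one_right h1]
  exact y.2

theorem isLocalRing : IsLocalRing O' := by
  refine IsLocalRing.of_isUnit_or_isUnit_one_sub_self fun x => ?_
  rcases D.isUnit_or x with h | h
  · exact Or.inl h
  rcases D.isUnit_or (1 - x) with h' | h'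
  · exact Or.inr h'
  exfalso
  have h1 := Ideal.add_mem _ h h'
  rw [add_sub_cancel, Ideal.mem_span_singleton] at h1
  exact D.not_isUnit_ir (isUnit_of_dvd_one h1)

theorem maximalIdeal_eq : haveI := D.isLocalRing
    maximalIdeal O' = Ideal.span {D.ir D.po} := by
  have := D.isLocalRing
  ext x
  rw [mem_maximalIdeal, mem_nonunits_iff]
  constructor
  · intro h
    exact (D.isUnit_or x).resolve_left h
  · intro h hx
    rw [Ideal.mem_span_singleton] at h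
    exact D.not_isUnit_ir (isUnit_of_dvd_unit h hx)

theorem exists_alpha : ∃ α : O', IsUnit (α - D.sr α) := by
  obtain ⟨α, hα, h0, h1⟩ := D.alp
  refine ⟨⟨α, hα⟩, IsUnit.of_mul_eq_one ⟨_, h1⟩ (Subtype.ext ?_)⟩
  change (α - σ α) * (α - σ α)⁻¹ = 1
  exact mul_inv_cancel₀ h0

theorem sr_cube (x : O') : D.sr (D.sr (D.sr x)) = x := Subtype.ext (D.cyc.cube x)

theorem sr_ir (x : O) : D.sr (D.ir x) = D.ir x := Subtype.ext (σ.commutes _)

theorem exists_ir (x : O') (hx : D.sr x = x) : ∃ y, D.ir y = x := by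
  obtain ⟨y, hy⟩ := D.cyc.fix x (congrArg Subtype.val hx)
  exact ⟨⟨y, (D.mem y).1 (by rw [hy]; exact x.2)⟩, Subtype.ext hy⟩

end Unr

end Fermat.Agent.LT.Unit
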