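import Fermat.Agent.LT.Unit.Descent

/-!
# The matching of fixed points at an unramified place
-/

set_option autoImplicit false

open IsLocalRing Matrix

namespace Fermat.Agent.LT.Unit

open Tw

variable {K L : Type*} [Field K] [Field L] [Algebra K L] {σ : L ≃ₐ[K] L}

section h90

/-- the algebra generated by a matrix -/
noncomputable def phi {F : Type*} [Field F] (A : Matrix (Fin 2) (Fin 2) F) {a b : F}
    (ha : A.det = -a) (hb : A.trace = b) : QuadraticAlgebra F a b →ₐ[F] Matrix (Fin 2) (Fin 2) F :=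
  QuadraticAlgebra.lift ⟨A, by rw [cayley, ha, hb, neg_smul, sub_neg_eq_add, add_comm]⟩

theorem phi_apply {F : Type*} [Field F] (A : Matrix (Fin 2) (Fin 2) F) {a b : F}
    (ha : A.det = -a) (hb : A.trace = b) (z : QuadraticAlgebra F a b) :
    phi A ha hb z = z.re • (1 : Matrix (Fin 2) (Fin 2) F) + z.im • A := rfl

theorem phi_injective {F : Type*} [Field F] {A : Matrix (Fin 2) (Fin 2) F} (hA : NS A) {a b : F}
    (ha : A.det = -a) (hb : A.trace = b) : Function.Injective (phi A ha hb) := by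
  rw [injective_iff_map_eq_zero]
  intro z hz
  rw [phi_apply] at hz
  have him : z.im = 0 := by
    by_contra h
    refine hA (-(z.im⁻¹ * z.re)) ?_
    have h1 : z.im • A = -(z.re • (1 : Matrix (Fin 2) (Fin 2) F)) := by
      rw [eq_neg_iff_add_eq_zero, add_comm]; exact hz
    calc A = z.im⁻¹ • (z.im • A) := by rw [smul_smul, inv_mul_cancel₀ h, one_smul]
      _ = _ := by rw [h1, smul_neg, smul_smul, neg_smul]
  rw [him, zero_smul, add_zero] at hz
  have hre : z.re = 0 := by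
    have := congrFun (congrFun hz 0) 0
    simpa using this
  exact QuadraticAlgebra.ext hre him

theorem NS_sc_mul {F : Type*} [Field F] {c : Fˣ} {A : GL (Fin 2) F} :
    NS ((sc c * A : GL (Fin 2) F) : Matrix (Fin 2) (Fin 2) F) ↔
      NS (A : Matrix (Fin 2) (Fin 2) F) := by
  have key : ∀ (c : Fˣ) (A : GL (Fin 2) F), NS (A : Matrix (Fin 2) (Fin 2) F) →
      NS ((sc c * A : GL (Fin 2) F) : Matrix (Fin 2) (Fin 2) F) := by
    intro c A hA a h
    rw [Units.val_mul, coe_sc, smul_mul_assoc, one_mul] at h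
    refine hA ((c : F)⁻¹ * a) ?_
    rw [← smul_smul, ← h, smul_smul, inv_mul_cancel₀ c.ne_zero, one_smul]
  refine ⟨fun h => ?_, key c A⟩
  have := key c⁻¹ _ h
  rwa [← mul_assoc, ← map_mul, inv_mul_cancel, map_one, one_mul] at this

/-- Hilbert 90 for the torus of a nonscalar matrix -/
theorem torus_h90 (h : Cyc3 σ) {γ : GL (Fin 2) K} (hγ : NS (γ : Matrix (Fin 2) (Fin 2) K))
    {v : GL (Fin 2) L} (hv : v ∈ tor γ) (hN : nm σ v = 1) :
    ∃ y ∈ tor (E := L) γ, v * sg σ y = y := by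
  set A : Matrix (Fin 2) (Fin 2) L := ((bc γ : GL (Fin 2) L) : Matrix (Fin 2) (Fin 2) L) with hA
  have hAns : NS A := ns_map (algebraMap K L) hγ
  have hdet : A.det = algebraMap K L (γ : Matrix (Fin 2) (Fin 2) K).det := det_map' _ _
  have htr : A.trace = algebraMap K L (γ : Matrix (Fin 2) (Fin 2) K).trace := Tw.trace_map' _ _
  have hAσ : A.map σ = A := by
    ext i j
    exact σ.commutes _
  have ha : A.det = -(-A.det) := (neg_neg _).symm
  have ha' : (σ : L →+* L) (-A.det) = -A.det := by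
    rw [hdet, map_neg]
    exact congrArg Neg.neg (σ.commutes _)
  have hb' : (σ : L →+* L) A.trace = A.trace := by
    rw [htr]
    exact σ.commutes _
  obtain ⟨α, hα⟩ := h.ne
  have hαu : IsUnit (α - (σ : L →+* L) α) := by
    rw [isUnit_iff_ne_zero, sub_ne_zero]
    exact hα.symm
  have hmap : ∀ z : QuadraticAlgebra L (-A.det) A.trace,
      (phi A ha rfl z).map σ = phi A ha rfl (qhom (σ : L →+* L) ha' hb' z) := by
    intro z
    rw [phi_apply, phi_apply, qhom_re, qhom_im]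
    ext i j
    have hij : σ (A i j) = A i j := congrFun (congrFun hAσ i) j
    simp only [Matrix.map_apply, Matrix.add_apply, Matrix.smul_apply, smul_eq_mul, map_add,
      map_mul, Matrix.one_apply, hij]
    congr 2
    split_ifs <;> simp
  obtain ⟨x, y, hxy⟩ := commutant hAns (congrArg Units.val hv).symm
  set z : QuadraticAlgebra L (-A.det) A.trace := ⟨x, y⟩ with hz
  have hzv : phi A ha rfl z = (v : Matrix (Fin 2) (Fin 2) L) := by rw [phi_apply]; exact hxy.symm
  have hN' : z * qhom (σ : L →+* L) ha' hb' z *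
      qhom (σ : L →+* L) ha' hb' (qhom (σ : L →+* L) ha' hb' z) = 1 := by
    apply phi_injective hAns ha rfl
    rw [map_mul, map_mul, ← hmap (qhom (σ : L →+* L) ha' hb' z), ← hmap z, hzv, map_one]
    have h1 := congrArg Units.val hN
    rwa [nm, Units.val_mul, Units.val_mul, Units.val_one] at h1
  obtain ⟨w, hw, hw2⟩ := Unit.h90 (σ : L →+* L) (fun x => h.cube x) ha' hb' hαu hN'
  refine ⟨(hw.map (phi A ha rfl)).unit, ?_, ?_⟩
  · rw [mem_tor]
    apply Units.ext
    rw [Units.val_mul, Units.val_mul]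
    change phi A ha rfl w * A = A * phi A ha rfl w
    rw [phi_apply, add_mul, mul_add, smul_mul_assoc, smul_mul_assoc, mul_smul_comm,
      mul_smul_comm, one_mul, mul_one]
  · apply Units.ext
    rw [Units.val_mul, coe_sg]
    change (v : Matrix (Fin 2) (Fin 2) L) * (phi A ha rfl w).map σ = phi A ha rfl w
    rw [hmap, ← hzv, ← map_mul, hw2]

end h90

variable {O : Subring K} {O' : Subring L} {ϖ : K}

namespace Unr

variable (D : Unr σ O O' ϖ)

include D

theorem exists_norm {A : GL (Fin 2) K} (htr : (A : Matrix (Fin 2) (Fin 2) K).trace ∈ O)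
    (hdet : GeneralLinearGroup.det A ∈ uO O) :
    ∃ (u : GL (Fin 2) L) (x y : L), x ∈ O' ∧ y ∈ O' ∧
      (u : Matrix (Fin 2) (Fin 2) L) = x • (1 : Matrix (Fin 2) (Fin 2) L) +
        y • ((bc A : GL (Fin 2) L) : Matrix (Fin 2) (Fin 2) L) ∧ nm σ u = bc A := by
  have := D.isLocalRing
  have : IsAdicComplete (Ideal.span {D.po}) O := D.comp
  obtain ⟨α, hα⟩ := D.exists_alpha
  set a : O := -⟨_, hdet.1⟩ with ha0
  set b : O := ⟨_, htr⟩ with hb0
  have hfin : Finite (ResidueField O') := by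
    have h1 := D.fin
    have h2 := D.maximalIdeal_eq
    change Finite (O' ⧸ maximalIdeal O')
    rw [h2]
    exact h1
  have hinj : Function.Injective D.ir := by
    intro x y hxy
    exact Subtype.ext ((algebraMap K L).injective (congrArg Subtype.val hxy))
  have hreg : ∀ x, D.ir D.po * x = 0 → x = 0 := by
    intro x hx
    have h1 : algebraMap K L ϖ * (x : L) = 0 := congrArg Subtype.val hx
    exact Subtype.ext ((mul_eq_zero.1 h1).resolve_left D.pne')
  have hε : IsUnit (⟨0, 1⟩ : QuadraticAlgebra O a b) := by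
    have hn : QuadraticAlgebra.norm (⟨0, 1⟩ : QuadraticAlgebra O a b) =
        (⟨_, hdet.1⟩ : O) := by
      rw [QuadraticAlgebra.norm_def, ha0]
      ring
    rw [QuadraticAlgebra.isUnit_iff_norm_isUnit, hn]
    exact IsUnit.of_mul_eq_one ⟨_, hdet.2⟩ (Subtype.ext (Units.mul_inv _))
  obtain ⟨u', hu', hN⟩ := norm_surj D.ir hinj D.sr D.sr_cube D.sr_ir D.exists_ir hα D.po
    D.maximalIdeal_eq hreg _ hε
  set B : Matrix (Fin 2) (Fin 2) L := ((bc A : GL (Fin 2) L) : Matrix (Fin 2) (Fin 2) L) with hB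
  have hBd : B.det = -((D.ir a : O') : L) := by
    rw [hB, coe_bc, Tw.det_map']
    change _ = -algebraMap K L (a : K)
    rw [ha0, Subring.coe_neg, map_neg, neg_neg]
    rfl
  have hBt : B.trace = ((D.ir b : O') : L) := by
    rw [hB, coe_bc, Tw.trace_map']
    rfl
  have hBσ : B.map σ = B := by
    ext i j
    exact σ.commutes _
  set P : QuadraticAlgebra O' (D.ir a) (D.ir b) →+* Matrix (Fin 2) (Fin 2) L :=
    (phi B hBd hBt : QuadraticAlgebra L _ _ →+* _).comp
      (qhom O'.subtype (a' := ((D.ir a : O') : L)) (b' := ((D.ir b : O') : L)) rfl rfl) with hP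
  have hPa : ∀ z, P z = (z.re : L) • (1 : Matrix (Fin 2) (Fin 2) L) + (z.im : L) • B :=
    fun z => rfl
  have hPσ : ∀ z, (P z).map σ = P (qhom D.sr (D.sr_ir a) (D.sr_ir b) z) := by
    intro z
    rw [hPa, hPa]
    conv_rhs => rw [← hBσ]
    ext i j
    simp only [Matrix.map_apply, Matrix.add_apply, Matrix.smul_apply, smul_eq_mul, map_add,
      map_mul, Matrix.one_apply]
    congr 2
    split_ifs <;> simp
  refine ⟨(hu'.map P).unit, u'.re, u'.im, u'.re.2, u'.im.2, hPa _, ?_⟩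
  apply Units.ext
  rw [nm, Units.val_mul, Units.val_mul, coe_sg, coe_sg, coe_sg]
  change P u' * (P u').map σ * ((P u').map σ).map σ = B
  rw [hPσ, hPσ, ← map_mul, ← map_mul, hN, hPa]
  change algebraMap K L ((0 : O) : K) • (1 : Matrix (Fin 2) (Fin 2) L) +
    algebraMap K L ((1 : O) : K) • B = B
  simp

theorem bu_of_nu (c : Lˣ) : ∃ c' : Kˣ, nu σ c = bu c' := by
  obtain ⟨c', hc'⟩ := exists_unit_of_fixed σ D.cyc (su_nu σ D.cyc c)
  exact ⟨c', hc'.symm⟩

theorem trace_mem_of_conj {A : GL (Fin 2) K} {g : GL (Fin 2) L} (h : g⁻¹ * bc A * g ∈ KO O') :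
    (A : Matrix (Fin 2) (Fin 2) K).trace ∈ O ∧ GeneralLinearGroup.det A ∈ uO O := by
  constructor
  · rw [← D.mem, ← Tw.trace_map', ← coe_bc]
    have h1 : ((bc A : GL (Fin 2) L) : Matrix (Fin 2) (Fin 2) L).trace =
        ((g⁻¹ * bc A * g : GL (Fin 2) L) : Matrix (Fin 2) (Fin 2) L).trace := by
      rw [Units.val_mul, Matrix.trace_mul_comm, ← Units.val_mul]
      congr 2
      group
    rw [h1, Matrix.trace_fin_two]
    exact O'.add_mem (h.1 _ _) (h.1 _ _)
  · rw [← D.bu_uO]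
    have h1 : GeneralLinearGroup.det (bc (E := L) A) = bu (GeneralLinearGroup.det A) := by
      rw [bc, GeneralLinearGroup.map_det]
      rfl
    have h2 := (mem_KO_iff.1 h).2
    rwa [map_mul, map_mul, map_inv, mul_comm, mul_inv_cancel_left, h1] at h2

theorem ZKO_bc {g : GL (Fin 2) K} : bc g ∈ ZKO O' ↔ g ∈ ZKO O := by
  constructor
  · rintro ⟨c, k, hk, h⟩
    obtain ⟨n, u, hu, hc⟩ := D.val c c.ne_zero
    set p : Kˣ := Units.mk0 ϖ D.pne with hp
    have hc' : c = bu (p ^ n) * u := by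
      apply Units.ext
      rw [Units.val_mul, bu_coe, Units.val_zpow_eq_zpow_val, map_zpow₀, hp, Units.val_mk0, hc]
    refine ⟨p ^ n, sc (p ^ n)⁻¹ * g, ?_, by rw [← mul_assoc, ← map_mul, mul_inv_cancel, map_one,
      one_mul]⟩
    rw [← D.bc_KO, map_mul, h, bc_sc, hc', map_inv, ← mul_assoc, ← map_mul,
      inv_mul_cancel_left]
    exact (KO O').mul_mem (sc_KO.2 hu) hk
  · rintro ⟨c, k, hk, rfl⟩
    rw [map_mul, bc_sc]
    exact ⟨_, _, D.bc_KO.2 hk, rfl⟩

/-- normalisation of `γ` on the `K`-side -/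
theorem exists_normal {γ : GL (Fin 2) K} {h : GL (Fin 2) K} (hh : h⁻¹ * γ * h ∈ ZKO O) :
    ∃ (c : Kˣ) (A : GL (Fin 2) K), γ = sc c * A ∧
      (A : Matrix (Fin 2) (Fin 2) K).trace ∈ O ∧ GeneralLinearGroup.det A ∈ uO O := by
  obtain ⟨c, k, hk, e⟩ := hh
  refine ⟨c, sc c⁻¹ * γ, by rw [← mul_assoc, ← map_mul, mul_inv_cancel, map_one, one_mul], ?_⟩
  apply D.trace_mem_of_conj (g := bc h)
  have h1 : (bc h)⁻¹ * bc (sc c⁻¹ * γ) * bc h = bc (E := L) k := by
    have h2 : k = h⁻¹ * (sc c⁻¹ * γ) * h := by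
      calc k = sc c⁻¹ * (sc c * k) := by
            rw [← mul_assoc, ← map_mul, inv_mul_cancel, map_one, one_mul]
        _ = (sc c⁻¹ * h⁻¹) * γ * h := by rw [← e]; group
        _ = _ := by rw [sc_comm]; group
    rw [h2]
    simp only [map_mul, map_inv]
  rw [h1, D.bc_KO]
  exact hk

/-- normalisation of `γ` on the `L`-side -/
theorem exists_normal' {γ : GL (Fin 2) K} {t g : GL (Fin 2) L} (ht : nm σ t = bc γ)
    (hg : g⁻¹ * t * sg σ g ∈ ZKO O') :
    ∃ (c : Kˣ) (A : GL (Fin 2) K), γ = sc c * A ∧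
      (A : Matrix (Fin 2) (Fin 2) K).trace ∈ O ∧ GeneralLinearGroup.det A ∈ uO O := by
  obtain ⟨c, κ, hκ, e⟩ := hg
  obtain ⟨c', hc'⟩ := D.bu_of_nu c
  have h1 : g⁻¹ * bc γ * g = sc (bu c') * nm σ κ := by
    rw [← hc', ← nm_sc_mul, ← e, ← ht]
    simp only [nm, map_mul, map_inv, sg_cube σ D.cyc]
    group
  refine ⟨c', sc c'⁻¹ * γ, by rw [← mul_assoc, ← map_mul, mul_inv_cancel, map_one, one_mul], ?_⟩
  apply D.trace_mem_of_conj (g := g)
  have h2 : g⁻¹ * bc (sc c'⁻¹ * γ) * g = nm σ κ := by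
    calc g⁻¹ * bc (sc c'⁻¹ * γ) * g = (g⁻¹ * sc (bu c'⁻¹)) * bc γ * g := by
          rw [map_mul, bc_sc]; group
      _ = sc (bu c'⁻¹) * (g⁻¹ * bc γ * g) := by rw [← sc_comm]; group
      _ = nm σ κ := by
        rw [h1, ← mul_assoc, ← map_mul, ← map_mul, inv_mul_cancel, map_one, map_one, one_mul]
  rw [h2]
  exact D.nm_KO hκ

/-- `KO` versus `ZKO` for matrices with unit determinant -/
theorem ZKO_of_normal {c : Kˣ} {A h : GL (Fin 2) K} (hdet : GeneralLinearGroup.det A ∈ uO O) :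
    h⁻¹ * (sc c * A) * h ∈ ZKO O ↔ h⁻¹ * A * h ∈ KO O := by
  have e : h⁻¹ * (sc c * A) * h = sc c * (h⁻¹ * A * h) := by
    calc h⁻¹ * (sc c * A) * h = (h⁻¹ * sc c) * A * h := by group
      _ = _ := by rw [← sc_comm]; group
  rw [e]
  constructor
  · rintro ⟨d, k, hk, hd⟩
    have h1 : h⁻¹ * A * h = sc (c⁻¹ * d) * k := by
      calc h⁻¹ * A * h = sc c⁻¹ * (sc c * (h⁻¹ * A * h)) := by
            rw [← mul_assoc (sc c⁻¹), ← map_mul, inv_mul_cancel, map_one, one_mul]
        _ = _ := by rw [hd, ← mul_assoc, ← map_mul]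
    have h2 : c⁻¹ * d ∈ uO O := by
      rw [← D.bu_uO]
      apply D.mem_uO_of_pow two_ne_zero
      rw [← map_pow, D.bu_uO]
      have h3 := congrArg GeneralLinearGroup.det h1
      rw [map_mul, map_mul, map_inv, mul_comm, mul_inv_cancel_left, map_mul, det_sc,
        ← pow_two] at h3
      rw [show (c⁻¹ * d) ^ 2 = GeneralLinearGroup.det A * (GeneralLinearGroup.det k)⁻¹ by
        rw [h3, mul_inv_cancel_right]]
      exact (uO O).mul_mem hdet ((uO O).inv_mem (det_uO_of_KO hk))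
    rw [h1]
    exact (KO O).mul_mem (sc_KO.2 h2) hk
  · intro hk
    exact ⟨c, _, hk, rfl⟩

/-- the good case: no translation is needed -/
theorem fixed_iff_good {c : Kˣ} {A : GL (Fin 2) K} {t : GL (Fin 2) L}
    (ht : nm σ t = bc (sc c * A)) (htZ : t ∈ ZKO O') (hA : A ∈ KO O)
    (hgood : ∃ r : Kˣ, r ∈ uO O ∧ ((r : K) = A 0 1 ∨ (r : K) = A 1 0 ∨
      (r : K) = A 0 0 - A 1 1)) (g : GL (Fin 2) L) :
    g⁻¹ * t * sg σ g ∈ ZKO O' ↔
      ∃ h : GL (Fin 2) K, (∃ k ∈ ZKO O', g = bc h * k) ∧ h⁻¹ * (sc c * A) * h ∈ ZKO O := by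
  obtain ⟨e, t', ht', rfl⟩ := htZ
  have hns : NS (A : Matrix (Fin 2) (Fin 2) K) := by
    obtain ⟨r, -, hr⟩ := hgood
    rw [ns_iff]
    rcases hr with h | h | h
    · right; left; rw [← h]; exact r.ne_zero
    · left; rw [← h]; exact r.ne_zero
    · right; right; rw [← sub_ne_zero, ← h]; exact r.ne_zero
  have hcomm := comm_of_nm σ D.cyc ht
  -- `t'` commutes with `A`
  have h1 : t' * bc A = bc A * t' := by
    have h2 : sc e * t' * (sc (bu c) * bc A) = sc (bu c) * bc A * (sc e * t') := by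
      rw [← bc_sc, ← map_mul]; exact hcomm
    have h3 : sc (e * bu c) * (t' * bc A) = sc (e * bu c) * (bc A * t') := by
      calc sc (e * bu c) * (t' * bc A) = sc e * (sc (bu c) * t') * bc A := by
            rw [map_mul]; group
        _ = sc e * t' * (sc (bu c) * bc A) := by rw [sc_comm (bu c) t']; group
        _ = sc (bu c) * (bc A * sc e) * t' := by rw [h2]; group
        _ = _ := by rw [← sc_comm e (bc A), mul_comm e, map_mul]; group
    exact mul_left_cancel h3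
  obtain ⟨x, y, hxy⟩ := commutant (ns_map (algebraMap K L) hns) (congrArg Units.val h1).symm
  have hentry : ∀ i j, t' i j = x * (1 : Matrix (Fin 2) (Fin 2) L) i j +
      y * algebraMap K L (A i j) := by
    intro i j
    rw [hxy]
    rfl
  have hy : y ∈ O' := by
    obtain ⟨r, hr, hr'⟩ := hgood
    have hyr : y * algebraMap K L r ∈ O' := by
      rcases hr' with h | h | h
      · have := ht'.1 0 1
        rw [hentry] at this
        simpa [h] using this
      · have := ht'.1 1 0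
        rw [hentry] at this
        simpa [h] using this
      · have := O'.sub_mem (ht'.1 0 0) (ht'.1 1 1)
        rw [hentry, hentry] at this
        have e2 : y * algebraMap K L r = x * (1 : Matrix (Fin 2) (Fin 2) L) 0 0 +
            y * algebraMap K L (A 0 0) - (x * (1 : Matrix (Fin 2) (Fin 2) L) 1 1 +
              y * algebraMap K L (A 1 1)) := by
          rw [h, map_sub, Matrix.one_apply_eq, Matrix.one_apply_eq]
          ring
        rw [e2]
        exact this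
    have h2 := O'.mul_mem hyr ((D.mem _).2 hr.2)
    rwa [mul_assoc, ← map_mul, Units.mul_inv, map_one, mul_one] at h2
  have hx : x ∈ O' := by
    have h2 := O'.sub_mem (ht'.1 0 0) (O'.mul_mem hy ((D.mem _).2 (hA.1 0 0)))
    rw [hentry, Matrix.one_apply_eq, mul_one] at h2
    simpa using h2
  -- the norm of `t'`
  obtain ⟨e', he'⟩ := D.bu_of_nu e
  have hN : nm σ t' = sc (bu (e'⁻¹ * c)) * bc A := by
    rw [nm_sc_mul, he'] at ht
    rw [map_mul, map_mul, mul_assoc, ← bc_sc c, ← map_mul, ← ht, ← mul_assoc, ← map_mul,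
      ← map_mul, inv_mul_cancel, map_one, map_one, one_mul]
  have hc1 : bu (e'⁻¹ * c) ∈ uO O' := by
    apply D.mem_uO_of_pow two_ne_zero
    have h3 := congrArg GeneralLinearGroup.det hN
    rw [map_mul, det_sc, ← pow_two] at h3
    rw [show bu (e'⁻¹ * c) ^ 2 = GeneralLinearGroup.det (nm σ t') *
      (GeneralLinearGroup.det (bc (E := L) A))⁻¹ by rw [h3, mul_inv_cancel_right]]
    exact (uO O').mul_mem (det_uO_of_KO (D.nm_KO ht'))
      ((uO O').inv_mem (det_uO_of_KO (D.bc_KO.2 hA)))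
  have key := D.fixed_iff hx hy hxy (det_uO_of_KO hA) hc1 hN g
  have e1 : g⁻¹ * (sc e * t') * sg σ g ∈ ZKO O' ↔ g⁻¹ * t' * sg σ g ∈ ZKO O' := by
    have e2 : g⁻¹ * (sc e * t') * sg σ g = sc e * (g⁻¹ * t' * sg σ g) := by
      calc g⁻¹ * (sc e * t') * sg σ g = (g⁻¹ * sc e) * t' * sg σ g := by group
        _ = _ := by rw [← sc_comm]; group
    rw [e2]
    exact (ZKO O').mul_mem_cancel_left (sc_mem_ZKO e)
  rw [e1, key]
  refine exists_congr fun h => and_congr_right fun _ => ?_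
  rw [D.ZKO_of_normal (det_uO_of_KO hA)]

/-- the general case -/
theorem fixed_iff_general {γ : GL (Fin 2) K} (hγ : NS (γ : Matrix (Fin 2) (Fin 2) K))
    {t : GL (Fin 2) L} (ht : nm σ t = bc γ) {c : Kˣ} {A : GL (Fin 2) K} (hc : γ = sc c * A)
    (htr : (A : Matrix (Fin 2) (Fin 2) K).trace ∈ O) (hdet : GeneralLinearGroup.det A ∈ uO O) :
    ∃ y ∈ tor (E := L) γ, ∀ g : GL (Fin 2) L, g⁻¹ * t * sg σ g ∈ ZKO O' ↔
      ∃ h : GL (Fin 2) K, (∃ k ∈ ZKO O', g = y * bc h * k) ∧ h⁻¹ * γ * h ∈ ZKO O := by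
  obtain ⟨u, x, y, hx, hy, hxy, hN⟩ := D.exists_norm htr hdet
  have hAns : NS (A : Matrix (Fin 2) (Fin 2) K) := by rw [hc] at hγ; exact NS_sc_mul.1 hγ
  have htorA : ∀ v : GL (Fin 2) L, v ∈ tor A ↔ v ∈ tor γ := by
    intro v
    rw [mem_tor, mem_tor, hc, map_mul, bc_sc]
    have h1 : v * (sc (bu c) * bc A) = sc (bu c) * (v * bc A) := by
      rw [← mul_assoc, ← sc_comm, mul_assoc]
    rw [h1, mul_assoc]
    exact (mul_right_inj (sc (bu c))).symm
  have huA : u ∈ tor (E := L) A := comm_of_nm σ D.cyc hN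
  have hu : u ∈ tor (E := L) γ := (htorA u).1 huA
  have htγ : t ∈ tor (E := L) γ := comm_of_nm σ D.cyc ht
  have hN1 : nm σ (t * u⁻¹) = sc (bu c) := by
    rw [nm_mul σ hγ htγ ((tor γ).inv_mem hu), nm_inv σ hγ hu, ht, hN, hc, map_mul, bc_sc,
      mul_inv_cancel_right]
  obtain ⟨e, he⟩ := exists_nu σ hN1
  have hN2 : nm σ (t * u⁻¹ * sc e⁻¹) = 1 := by
    rw [nm_mul σ hγ ((tor γ).mul_mem htγ ((tor γ).inv_mem hu)) (sc_mem_tor γ _), hN1, nm_sc,
      nu_inv, he, ← map_mul, mul_inv_cancel, map_one]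
  obtain ⟨y0, hy0, hy1⟩ := torus_h90 D.cyc hγ ((tor γ).mul_mem ((tor γ).mul_mem htγ
    ((tor γ).inv_mem hu)) (sc_mem_tor γ _)) hN2
  refine ⟨y0, hy0, fun g => ?_⟩
  -- `t = e y₀ u σ(y₀)⁻¹`
  have hsy : sg σ y0 ∈ tor (E := L) γ := sg_mem_tor σ hy0
  have htf : t = sc e * (y0 * u * (sg σ y0)⁻¹) := by
    have h1 : t * u⁻¹ * sc e⁻¹ = y0 * (sg σ y0)⁻¹ := eq_mul_inv_of_mul_eq hy1
    have h2 : t = y0 * (sg σ y0)⁻¹ * sc e * u := by
      rw [← h1]
      calc t = t * u⁻¹ * sc (e⁻¹ * e) * u := by rw [inv_mul_cancel, map_one]; group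
        _ = _ := by rw [map_mul]; group
    rw [h2]
    calc y0 * (sg σ y0)⁻¹ * sc e * u = y0 * ((sg σ y0)⁻¹ * sc e) * u := by group
      _ = (y0 * sc e) * ((sg σ y0)⁻¹ * u) := by rw [← sc_comm]; group
      _ = sc e * (y0 * (u * (sg σ y0)⁻¹)) := by
        rw [← sc_comm e y0, tor_comm hγ ((tor γ).inv_mem hsy) hu]; group
      _ = _ := by group
  have hu1 : (1 : Lˣ) ∈ uO O' := (uO O').one_mem
  have key := D.fixed_iff hx hy hxy hdet hu1 (by rw [map_one, one_mul]; exact hN) (y0⁻¹ * g)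
  have e1 : g⁻¹ * t * sg σ g ∈ ZKO O' ↔ (y0⁻¹ * g)⁻¹ * u * sg σ (y0⁻¹ * g) ∈ ZKO O' := by
    have e2 : g⁻¹ * t * sg σ g = sc e * ((y0⁻¹ * g)⁻¹ * u * sg σ (y0⁻¹ * g)) := by
      rw [htf, map_mul, map_inv]
      calc g⁻¹ * (sc e * (y0 * u * (sg σ y0)⁻¹)) * sg σ g
          = (g⁻¹ * sc e) * (y0 * u * (sg σ y0)⁻¹) * sg σ g := by group
        _ = _ := by rw [← sc_comm]; group
    rw [e2]
    exact (ZKO O').mul_mem_cancel_left (sc_mem_ZKO e)
  rw [e1, key]
  refine exists_congr fun h => ?_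
  rw [hc, D.ZKO_of_normal hdet]
  refine and_congr_left fun _ => exists_congr fun k => and_congr_right fun _ => ?_
  rw [inv_mul_eq_iff_eq_mul, mul_assoc]

end Unr

end Fermat.Agent.LT.Unit
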