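import Fermat.Agent.LT.Unit.Quad

/-!
# The norm is surjective on units of quadratic orders in an unramified cubic extension
-/

set_option autoImplicit false

open IsLocalRing

namespace Fermat.Agent.LT.Unit

section complete

variable {O : Type*} [CommRing O] {a b : O}

theorem re_algebraMap_pow_mul (c : O) (n : ℕ) (z : QuadraticAlgebra O a b) :
    (algebraMap O (QuadraticAlgebra O a b) c ^ n * z).re = c ^ n * z.re := by
  rw [← map_pow, ← Algebra.smul_def, QuadraticAlgebra.re_smul, smul_eq_mul]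

theorem im_algebraMap_pow_mul (c : O) (n : ℕ) (z : QuadraticAlgebra O a b) :
    (algebraMap O (QuadraticAlgebra O a b) c ^ n * z).im = c ^ n * z.im := by
  rw [← map_pow, ← Algebra.smul_def, QuadraticAlgebra.im_smul, smul_eq_mul]

theorem smodEq_iff (c : O) (n : ℕ) (x y : O) :
    x ≡ y [SMOD (Ideal.span {c} ^ n • (⊤ : Submodule O O))] ↔ ∃ z, x - y = c ^ n * z := by
  rw [SModEq.sub_mem, Ideal.span_singleton_pow, smul_eq_mul, Ideal.mul_top,
    Ideal.mem_span_singleton]
  rfl

/-- quadratic algebras over complete rings are complete -/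
instance quad_isAdicComplete (c : O) [IsAdicComplete (Ideal.span {c}) O] :
    IsAdicComplete (Ideal.span {algebraMap O (QuadraticAlgebra O a b) c})
      (QuadraticAlgebra O a b) where
  haus' := by
    intro x hx
    have h1 : ∀ n, ∃ z, x = algebraMap O (QuadraticAlgebra O a b) c ^ n * z := by
      intro n
      obtain ⟨z, hz⟩ := (smodEq_iff _ n _ _).mp (hx n)
      exact ⟨z, by rw [← hz, sub_zero]⟩
    apply QuadraticAlgebra.ext
    · refine IsHausdorff.haus (I := Ideal.span {c}) inferInstance x.re fun n => ?_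
      obtain ⟨z, hz⟩ := h1 n
      refine (smodEq_iff _ n _ _).mpr ⟨z.re, ?_⟩
      rw [sub_zero, ← re_algebraMap_pow_mul, ← hz]
    · refine IsHausdorff.haus (I := Ideal.span {c}) inferInstance x.im fun n => ?_
      obtain ⟨z, hz⟩ := h1 n
      refine (smodEq_iff _ n _ _).mpr ⟨z.im, ?_⟩
      rw [sub_zero, ← im_algebraMap_pow_mul, ← hz]
  prec' := by
    intro f hf
    obtain ⟨L1, hL1⟩ := IsPrecomplete.prec (I := Ideal.span {c}) inferInstance
      (f := fun n => (f n).re) (by
        intro m n hmn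
        obtain ⟨z, hz⟩ := (smodEq_iff _ m _ _).mp (hf hmn)
        refine (smodEq_iff _ m _ _).mpr ⟨z.re, ?_⟩
        rw [← re_algebraMap_pow_mul, ← hz]
        rfl)
    obtain ⟨L2, hL2⟩ := IsPrecomplete.prec (I := Ideal.span {c}) inferInstance
      (f := fun n => (f n).im) (by
        intro m n hmn
        obtain ⟨z, hz⟩ := (smodEq_iff _ m _ _).mp (hf hmn)
        refine (smodEq_iff _ m _ _).mpr ⟨z.im, ?_⟩
        rw [← im_algebraMap_pow_mul, ← hz]
        rfl)
    refine ⟨⟨L1, L2⟩, fun n => ?_⟩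
    obtain ⟨z1, hz1⟩ := (smodEq_iff _ n _ _).mp (hL1 n)
    obtain ⟨z2, hz2⟩ := (smodEq_iff _ n _ _).mp (hL2 n)
    refine (smodEq_iff _ n _ _).mpr ⟨⟨z1, z2⟩, ?_⟩
    apply QuadraticAlgebra.ext
    · rw [re_algebraMap_pow_mul]
      exact hz1
    · rw [im_algebraMap_pow_mul]
      exact hz2

end complete

section surj

variable {O O' : Type*} [CommRing O] [CommRing O'] [IsLocalRing O'] (i : O →+* O')
  (hi : Function.Injective i) (σ : O' →+* O') (hσ : ∀ x, σ (σ (σ x)) = x)
  (hσi : ∀ x, σ (i x) = i x) (hfix : ∀ x, σ x = x → ∃ y, i y = x)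
  {α : O'} (hα : IsUnit (α - σ α))

/-- the trace to `O'` -/
def tr3 (x : O') : O' := x + σ x + σ (σ x)

include hσ hfix hα hσi in
/-- there is an element of trace one -/
theorem exists_trace_one (hloc : ∀ x : O, IsUnit (i x) → IsUnit x) :
    ∃ θ : O', θ + σ θ + σ (σ θ) = 1 := by
  obtain ⟨p0, p1, p2, h0, h1, h2⟩ := exists_lagrange σ hσ hα
  have key : p0 * tr3 σ 1 + p1 * tr3 σ α + p2 * tr3 σ (α ^ 2) = 1 := by
    simp only [tr3, map_one, map_pow]
    linear_combination h0 + h1 + h2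
  have hu : ∃ y : O', IsUnit (tr3 σ y) := by
    by_contra hcon
    push Not at hcon
    have : (1 : O') ∈ maximalIdeal O' := by
      rw [← key]
      exact Ideal.add_mem _ (Ideal.add_mem _ (Ideal.mul_mem_left _ _ (hcon _))
        (Ideal.mul_mem_left _ _ (hcon _))) (Ideal.mul_mem_left _ _ (hcon _))
    exact (Ideal.ne_top_iff_one _).mp (maximalIdeal.isMaximal O').ne_top this
  obtain ⟨y, hy⟩ := hu
  have hfy : σ (tr3 σ y) = tr3 σ y := by
    simp only [tr3, map_add, hσ]
    ring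
  obtain ⟨t, ht⟩ := hfix _ hfy
  rw [← ht] at hy
  obtain ⟨s, hs⟩ := (hloc t hy).exists_left_inv
  refine ⟨i s * y, ?_⟩
  rw [map_mul, map_mul, hσi, hσi, ← map_one i, ← hs, map_mul, ht]
  simp only [tr3]
  ring

variable (ϖ : O) [IsAdicComplete (Ideal.span {ϖ}) O] (hm : maximalIdeal O' = Ideal.span {i ϖ})
  (hreg : ∀ x, i ϖ * x = 0 → x = 0)

omit [IsAdicComplete (Ideal.span {ϖ}) O] in
include hi hσi hfix hm hreg in
theorem dvd_of_mem {x : O} (hx : i x ∈ maximalIdeal O') : ϖ ∣ x := by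
  rw [hm, Ideal.mem_span_singleton] at hx
  obtain ⟨y, hy⟩ := hx
  have h1 : σ y = y := by
    have h2 : i ϖ * (σ y - y) = 0 := by
      have h3 := congrArg σ hy
      rw [hσi, map_mul, hσi] at h3
      rw [mul_sub, ← h3, ← hy, sub_self]
    exact sub_eq_zero.mp (hreg _ h2)
  obtain ⟨z, rfl⟩ := hfix y h1
  exact ⟨z, hi (by rw [hy, map_mul])⟩

omit [IsLocalRing O'] in
include hi hσi hfix in
theorem isUnit_of_isUnit_map (x : O) (hx : IsUnit (i x)) : IsUnit x := by
  obtain ⟨y, hy⟩ := hx.exists_right_inv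
  have h1 : σ y = y := by
    have h3 := congrArg σ hy
    rw [map_mul, hσi, map_one] at h3
    calc σ y = (i x * y) * σ y := by rw [hy, one_mul]
      _ = (i x * σ y) * y := by ring
      _ = y := by rw [h3, one_mul]
  obtain ⟨z, rfl⟩ := hfix y h1
  exact IsUnit.of_mul_eq_one z (hi (by rw [map_mul, hy, map_one]))

variable {a b : O}

omit [IsLocalRing O'] in
include hσ in
/-- the norm of `1 + ϖ θ y` -/
theorem exists_norm_one_add {θ : O'} (hθ : θ + σ θ + σ (σ θ) = 1)
    (hσi : ∀ x, σ (i x) = i x) (hfix : ∀ x, σ x = x → ∃ y, i y = x)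
    (δ : QuadraticAlgebra O a b) :
    ∃ u : QuadraticAlgebra O' (i a) (i b),
      u * qhom σ (hσi a) (hσi b) u * qhom σ (hσi a) (hσi b) (qhom σ (hσi a) (hσi b) u) =
        qhom i rfl rfl (1 + algebraMap O _ ϖ * δ) := by
  obtain ⟨E2, hE2⟩ := hfix (θ * σ θ + θ * σ (σ θ) + σ θ * σ (σ θ)) (by
    simp only [map_add, map_mul, hσ]; ring)
  obtain ⟨E3, hE3⟩ := hfix (θ * σ θ * σ (σ θ)) (by simp only [map_mul, hσ]; ring)
  obtain ⟨y, hy⟩ := LocalF.exists_add_mul_eq (algebraMap O (QuadraticAlgebra O a b) ϖ)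
    (fun y => algebraMap O _ E2 * y ^ 2 + algebraMap O _ (ϖ * E3) * y ^ 3) (by
      intro x y
      refine ⟨algebraMap O _ E2 * (x + y) +
        algebraMap O _ (ϖ * E3) * (x ^ 2 + x * y + y ^ 2), ?_⟩
      ring) δ
  have hc : ∀ x : O', algebraMap O' (QuadraticAlgebra O' (i a) (i b)) x = ⟨x, 0⟩ := fun x => rfl
  have hq : ∀ x : O', qhom σ (hσi a) (hσi b) (algebraMap O' _ x) = algebraMap O' _ (σ x) := by
    intro x
    apply QuadraticAlgebra.ext
    · rfl
    · exact map_zero σ
  have hqi : ∀ z : QuadraticAlgebra O a b,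
      qhom σ (hσi a) (hσi b) (qhom i rfl rfl z) = qhom i rfl rfl z := by
    intro z
    apply QuadraticAlgebra.ext
    · exact hσi _
    · exact hσi _
  have hii : ∀ x : O, qhom i (a := a) (b := b) rfl rfl (algebraMap O _ x) =
      algebraMap O' (QuadraticAlgebra O' (i a) (i b)) (i x) := by
    intro x
    apply QuadraticAlgebra.ext
    · rfl
    · exact map_zero i
  set Y := qhom i (a := a) (b := b) rfl rfl y with hY
  refine ⟨1 + algebraMap O' _ (i ϖ * θ) * Y, ?_⟩
  have e1 : qhom σ (hσi a) (hσi b) (1 + algebraMap O' _ (i ϖ * θ) * Y) =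
      1 + algebraMap O' _ (i ϖ * σ θ) * Y := by
    rw [map_add, map_one, map_mul, hq, hqi, map_mul, hσi]
  have e2 : qhom σ (hσi a) (hσi b) (1 + algebraMap O' _ (i ϖ * σ θ) * Y) =
      1 + algebraMap O' _ (i ϖ * σ (σ θ)) * Y := by
    rw [map_add, map_one, map_mul, hq, hqi, map_mul, hσi]
  have e3 : qhom i (a := a) (b := b) (a' := i a) (b' := i b) rfl rfl
      (1 + algebraMap O _ ϖ * δ) = 1 + algebraMap O' _ (i ϖ) * (Y + algebraMap O' _ (i ϖ) *
        (algebraMap O' _ (i E2) * Y ^ 2 + algebraMap O' _ (i ϖ * i E3) * Y ^ 3)) := by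
    rw [← hy]
    simp only [map_add, map_mul, map_pow, map_one, hii, ← hY]
  rw [e1, e2, e3, hE2, hE3]
  simp only [map_mul, map_add]
  have hθ' : algebraMap O' (QuadraticAlgebra O' (i a) (i b)) θ +
      algebraMap O' _ (σ θ) + algebraMap O' _ (σ (σ θ)) = 1 := by
    rw [← map_add, ← map_add, hθ, map_one]
  linear_combination (algebraMap O' (QuadraticAlgebra O' (i a) (i b)) (i ϖ) * Y) * hθ'

include hi hσ hσi hfix hα hm hreg in
/-- **The norm on units of quadratic orders in an unramified extension is surjective.** -/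
theorem norm_surj [Finite (ResidueField O')] (ε : QuadraticAlgebra O a b) (hε : IsUnit ε) :
    ∃ u : QuadraticAlgebra O' (i a) (i b), IsUnit u ∧
      u * qhom σ (hσi a) (hσi b) u * qhom σ (hσi a) (hσi b) (qhom σ (hσi a) (hσi b) u) =
        qhom i rfl rfl ε := by
  have hloc := isUnit_of_isUnit_map i hi σ hσi hfix
  obtain ⟨θ, hθ⟩ := exists_trace_one i σ hσ hσi hfix hα hloc
  have hσloc : IsLocalHom σ := by
    refine ⟨fun x hx => ?_⟩
    rw [← hσ x]
    exact (hx.map σ).map σ
  set r := residue O' with hr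
  set τ : ResidueField O' →+* ResidueField O' := ResidueField.map σ with hτd
  have hτr : ∀ x, τ (r x) = r (σ x) := fun x => ResidueField.map_residue σ x
  have hτ : ∀ x, τ (τ (τ x)) = x := by
    intro x
    obtain ⟨x, rfl⟩ := residue_surjective x
    rw [hτr, hτr, hτr, hσ]
  have hra : τ (r (i a)) = r (i a) := by rw [hτr, hσi]
  have hrb : τ (r (i b)) = r (i b) := by rw [hτr, hσi]
  have hα' : IsUnit (r α - τ (r α)) := by
    rw [hτr, ← map_sub]
    exact hα.map r
  have : Finite (QuadraticAlgebra (ResidueField O') (r (i a)) (r (i b))) :=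
    Finite.of_equiv _ (QuadraticAlgebra.equivProd _ _).symm
  -- the residue level
  obtain ⟨v, hv, hv2⟩ := exists_norm_eq_of_finite (qhom τ hra hrb) (qhom_cube τ hτ hra hrb)
    (fun u hu => h90 τ hτ hra hrb hα' hu) (qhom (r.comp i) rfl rfl ε) (hε.map _) (by
      apply QuadraticAlgebra.ext
      · change τ (r (i ε.re)) = r (i ε.re)
        rw [hτr, hσi]
      · change τ (r (i ε.im)) = r (i ε.im)
        rw [hτr, hσi])
  obtain ⟨x0, hx0⟩ := residue_surjective v.re
  obtain ⟨y0, hy0⟩ := residue_surjective v.im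
  set u0 : QuadraticAlgebra O' (i a) (i b) := ⟨x0, y0⟩ with hu0
  set s := qhom σ (hσi a) (hσi b) with hs
  have hru : qhom r rfl rfl u0 = v := by
    apply QuadraticAlgebra.ext
    · exact hx0
    · exact hy0
  have hrs : ∀ z : QuadraticAlgebra O' (i a) (i b),
      qhom r (a' := r (i a)) (b' := r (i b)) rfl rfl (s z) =
        qhom τ hra hrb (qhom r rfl rfl z) := by
    intro z
    apply QuadraticAlgebra.ext
    · exact (hτr _).symm
    · exact (hτr _).symm
  -- the norm of `u0` comes from `O`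
  have hfixq : ∀ z : QuadraticAlgebra O' (i a) (i b), s z = z →
      ∃ z' : QuadraticAlgebra O a b, qhom i rfl rfl z' = z := by
    intro z hz
    obtain ⟨p, hp⟩ := hfix z.re (congrArg QuadraticAlgebra.re hz)
    obtain ⟨q, hq⟩ := hfix z.im (congrArg QuadraticAlgebra.im hz)
    exact ⟨⟨p, q⟩, QuadraticAlgebra.ext hp hq⟩
  have hscube : ∀ z, s (s (s z)) = z := qhom_cube σ hσ (hσi a) (hσi b)
  obtain ⟨η, hη⟩ := hfixq (u0 * s u0 * s (s u0)) (by
    rw [map_mul, map_mul, hscube]; ring)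
  have hηε : qhom (r.comp i) (a' := r (i a)) (b' := r (i b)) rfl rfl η =
      qhom (r.comp i) rfl rfl ε := by
    have e1 : qhom (r.comp i) (a' := r (i a)) (b' := r (i b)) rfl rfl η =
        qhom r rfl rfl (qhom i rfl rfl η) := by
      apply QuadraticAlgebra.ext <;> rfl
    rw [e1, hη, map_mul, map_mul, hrs u0, hrs (s u0), hrs u0, hru]
    exact hv2
  have hdre : ϖ ∣ ε.re - η.re := by
    apply dvd_of_mem i hi σ hσi hfix ϖ hm hreg
    rw [← residue_eq_zero_iff, map_sub, map_sub, sub_eq_zero]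
    exact (congrArg QuadraticAlgebra.re hηε).symm
  have hdim : ϖ ∣ ε.im - η.im := by
    apply dvd_of_mem i hi σ hσi hfix ϖ hm hreg
    rw [← residue_eq_zero_iff, map_sub, map_sub, sub_eq_zero]
    exact (congrArg QuadraticAlgebra.im hηε).symm
  obtain ⟨d1, hd1⟩ := hdre
  obtain ⟨d2, hd2⟩ := hdim
  have hed : ε = η + algebraMap O (QuadraticAlgebra O a b) ϖ * ⟨d1, d2⟩ := by
    rw [← Algebra.smul_def]
    apply QuadraticAlgebra.ext
    · rw [QuadraticAlgebra.re_add, QuadraticAlgebra.re_smul, smul_eq_mul, ← hd1]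
      ring
    · rw [QuadraticAlgebra.im_add, QuadraticAlgebra.im_smul, smul_eq_mul, ← hd2]
      ring
  -- `η` is a unit
  obtain ⟨ε', hε'⟩ := hε.exists_right_inv
  have hηu : IsUnit η := by
    have h1 : η * ε' = 1 + algebraMap O (QuadraticAlgebra O a b) ϖ * (-(⟨d1, d2⟩ * ε')) := by
      linear_combination hε' - ε' * hed
    have h2 : IsUnit (η * ε') := by
      rw [h1]
      exact LocalF.isUnit_one_add_mul _ _
    exact isUnit_of_mul_isUnit_left h2
  obtain ⟨η', hη'⟩ := hηu.exists_right_inv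
  obtain ⟨u1, hu1⟩ := exists_norm_one_add i σ hσ ϖ hθ hσi hfix (⟨d1, d2⟩ * η')
  have hfinal : (u0 * u1) * s (u0 * u1) * s (s (u0 * u1)) = qhom i rfl rfl ε := by
    have e1 : (u0 * u1) * s (u0 * u1) * s (s (u0 * u1)) =
        (u0 * s u0 * s (s u0)) * (u1 * s u1 * s (s u1)) := by
      simp only [map_mul]
      ring
    rw [e1, hu1, ← hη, ← map_mul]
    congr 1
    linear_combination (algebraMap O (QuadraticAlgebra O a b) ϖ * ⟨d1, d2⟩) * hη' - hed
  refine ⟨u0 * u1, ?_, hfinal⟩
  have h3 : IsUnit ((u0 * u1) * s (u0 * u1) * s (s (u0 * u1))) := by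
    rw [hfinal]
    exact hε.map _
  exact isUnit_of_mul_isUnit_left (isUnit_of_mul_isUnit_left h3)

end surj

end Fermat.Agent.LT.Unit
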