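import Mathlib
import Fermat.Agent.LocalF.Units

/-!
# Norms and Hilbert 90 in quadratic algebras with a cyclic action of order three

`R` is a commutative ring with an automorphism `σ` with `σ³ = 1` and an element `α` such that
`α - σ α` is a unit (a Galois extension of rings).
-/

set_option autoImplicit false

open IsLocalRing

namespace Fermat.Agent.LT.Unit

section hom

variable {R S T : Type*} [CommRing R] [CommRing S] [CommRing T]

/-- the map of quadratic algebras induced by a ring homomorphism -/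
def qhom (f : R →+* S) {a b : R} {a' b' : S} (ha : f a = a') (hb : f b = b') :
    QuadraticAlgebra R a b →+* QuadraticAlgebra S a' b' where
  toFun z := ⟨f z.re, f z.im⟩
  map_one' := by
    apply QuadraticAlgebra.ext
    · exact map_one f
    · exact map_zero f
  map_zero' := by
    apply QuadraticAlgebra.ext
    · exact map_zero f
    · exact map_zero f
  map_add' x y := by
    apply QuadraticAlgebra.ext
    · exact map_add f _ _
    · exact map_add f _ _
  map_mul' x y := by
    apply QuadraticAlgebra.ext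
    · simp only [QuadraticAlgebra.re_mul, map_add, map_mul, ha]
    · simp only [QuadraticAlgebra.im_mul, map_add, map_mul, hb]

@[simp] theorem qhom_re (f : R →+* S) {a b : R} {a' b' : S} (ha : f a = a') (hb : f b = b')
    (z : QuadraticAlgebra R a b) : (qhom f ha hb z).re = f z.re := rfl

@[simp] theorem qhom_im (f : R →+* S) {a b : R} {a' b' : S} (ha : f a = a') (hb : f b = b')
    (z : QuadraticAlgebra R a b) : (qhom f ha hb z).im = f z.im := rfl

theorem norm_qhom (f : R →+* S) {a b : R} {a' b' : S} (ha : f a = a') (hb : f b = b')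
    (z : QuadraticAlgebra R a b) :
    QuadraticAlgebra.norm (qhom f ha hb z) = f (QuadraticAlgebra.norm z) := by
  simp only [QuadraticAlgebra.norm_def, qhom_re, qhom_im, map_sub, map_add, map_mul, ha, hb]

end hom

section lagrange

variable {R : Type*} [CommRing R] (σ : R →+* R) (hσ : ∀ x, σ (σ (σ x)) = x) {α : R}

include hσ in
theorem isUnit_sub_two (hα : IsUnit (α - σ α)) : IsUnit (α - σ (σ α)) := by
  have h1 := (hα.map σ).map σ
  rw [map_sub, map_sub, hσ] at h1
  rw [← neg_sub]
  exact h1.neg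

include hσ in
/-- Lagrange interpolation at `α, σ α, σ² α` -/
theorem exists_lagrange (hα : IsUnit (α - σ α)) : ∃ p0 p1 p2 : R,
    p0 + p1 * α + p2 * α ^ 2 = 1 ∧ p0 + p1 * σ α + p2 * σ α ^ 2 = 0 ∧
      p0 + p1 * σ (σ α) + p2 * σ (σ α) ^ 2 = 0 := by
  obtain ⟨u, hu⟩ := hα.exists_left_inv
  obtain ⟨v, hv⟩ := (isUnit_sub_two σ hσ hα).exists_left_inv
  refine ⟨u * v * (σ α * σ (σ α)), -(u * v * (σ α + σ (σ α))), u * v, ?_, ?_, ?_⟩
  · linear_combination (v * (α - σ (σ α))) * hu + hv
  · ring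
  · ring

end lagrange

section H90

variable {R : Type*} [CommRing R] (σ : R →+* R) (hσ : ∀ x, σ (σ (σ x)) = x) {α : R}
  {a b : R} (ha : σ a = a) (hb : σ b = b)

include hσ in
theorem qhom_cube (z : QuadraticAlgebra R a b) :
    qhom σ ha hb (qhom σ ha hb (qhom σ ha hb z)) = z := by
  apply QuadraticAlgebra.ext
  · simp [hσ]
  · simp [hσ]

theorem norm_polar (w v : QuadraticAlgebra R a b) (p q : R) :
    QuadraticAlgebra.norm (p • w + q • v) = p ^ 2 * QuadraticAlgebra.norm w +
      q ^ 2 * QuadraticAlgebra.norm v + p * q * (QuadraticAlgebra.norm (w + v) -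
        QuadraticAlgebra.norm w - QuadraticAlgebra.norm v) := by
  simp only [QuadraticAlgebra.norm_def, QuadraticAlgebra.re_add, QuadraticAlgebra.im_add,
    QuadraticAlgebra.re_smul, QuadraticAlgebra.im_smul, smul_eq_mul]
  ring

theorem norm_three (w0 w1 w2 : QuadraticAlgebra R a b) (p0 p1 p2 : R) :
    QuadraticAlgebra.norm (p0 • w0 + p1 • w1 + p2 • w2) =
      p0 ^ 2 * QuadraticAlgebra.norm w0 + p1 ^ 2 * QuadraticAlgebra.norm w1 +
      p2 ^ 2 * QuadraticAlgebra.norm w2 +
      p0 * p1 * (QuadraticAlgebra.norm (w0 + w1) - QuadraticAlgebra.norm w0 -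
        QuadraticAlgebra.norm w1) +
      p0 * p2 * (QuadraticAlgebra.norm (w0 + w2) - QuadraticAlgebra.norm w0 -
        QuadraticAlgebra.norm w2) +
      p1 * p2 * (QuadraticAlgebra.norm (w1 + w2) - QuadraticAlgebra.norm w1 -
        QuadraticAlgebra.norm w2) := by
  simp only [QuadraticAlgebra.norm_def, QuadraticAlgebra.re_add, QuadraticAlgebra.im_add,
    QuadraticAlgebra.re_smul, QuadraticAlgebra.im_smul, smul_eq_mul]
  ring

/-- the twisted trace -/
def ttr (u v z : QuadraticAlgebra R a b) : QuadraticAlgebra R a b :=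
  z + u * qhom σ ha hb z + v * qhom σ ha hb (qhom σ ha hb z)

theorem ttr_recover {p0 p1 p2 : R} (h0 : p0 + p1 * α + p2 * α ^ 2 = 1)
    (h1 : p0 + p1 * σ α + p2 * σ α ^ 2 = 0) (h2 : p0 + p1 * σ (σ α) + p2 * σ (σ α) ^ 2 = 0)
    (u v z : QuadraticAlgebra R a b) :
    p0 • ttr σ ha hb u v z + p1 • ttr σ ha hb u v (α • z) +
      p2 • ttr σ ha hb u v (α ^ 2 • z) = z := by
  apply QuadraticAlgebra.ext
  · simp only [ttr, QuadraticAlgebra.re_add, QuadraticAlgebra.re_smul, QuadraticAlgebra.re_mul,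
      qhom_re, qhom_im, QuadraticAlgebra.im_smul, smul_eq_mul, map_mul, map_pow]
    linear_combination z.re * h0 + (u.re * σ z.re + a * u.im * σ z.im) * h1 +
      (v.re * σ (σ z.re) + a * v.im * σ (σ z.im)) * h2
  · simp only [ttr, QuadraticAlgebra.im_add, QuadraticAlgebra.im_smul, QuadraticAlgebra.im_mul,
      qhom_re, qhom_im, QuadraticAlgebra.re_smul, smul_eq_mul, map_mul, map_pow]
    linear_combination z.im * h0 +
      (u.re * σ z.im + u.im * σ z.re + b * u.im * σ z.im) * h1 +
      (v.re * σ (σ z.im) + v.im * σ (σ z.re) + b * v.im * σ (σ z.im)) * h2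

include hσ in
theorem ttr_mem {u : QuadraticAlgebra R a b}
    (hu : u * qhom σ ha hb u * qhom σ ha hb (qhom σ ha hb u) = 1)
    (z : QuadraticAlgebra R a b) :
    u * qhom σ ha hb (ttr σ ha hb u (u * qhom σ ha hb u) z) =
      ttr σ ha hb u (u * qhom σ ha hb u) z := by
  rw [ttr, map_add, map_add, map_mul, map_mul, map_mul, qhom_cube σ hσ ha hb]
  linear_combination z * hu

include hσ in
/-- **Hilbert 90** for the units of a quadratic algebra over a local ring. -/
theorem h90 [IsLocalRing R] (hα : IsUnit (α - σ α)) {u : QuadraticAlgebra R a b}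
    (hu : u * qhom σ ha hb u * qhom σ ha hb (qhom σ ha hb u) = 1) :
    ∃ w : QuadraticAlgebra R a b, IsUnit w ∧ u * qhom σ ha hb w = w := by
  by_contra hcon
  push Not at hcon
  have key : ∀ w : QuadraticAlgebra R a b, u * qhom σ ha hb w = w →
      QuadraticAlgebra.norm w ∈ maximalIdeal R := by
    intro w hw
    rw [mem_maximalIdeal, mem_nonunits_iff]
    intro h
    exact hcon w (QuadraticAlgebra.isUnit_iff_norm_isUnit.mpr h) hw
  obtain ⟨p0, p1, p2, h0, h1, h2⟩ := exists_lagrange σ hσ hα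
  have hrec := ttr_recover σ ha hb h0 h1 h2 u (u * qhom σ ha hb u) 1
  set w0 := ttr σ ha hb u (u * qhom σ ha hb u) 1 with hw0
  set w1 := ttr σ ha hb u (u * qhom σ ha hb u) (α • 1) with hw1
  set w2 := ttr σ ha hb u (u * qhom σ ha hb u) (α ^ 2 • 1) with hw2
  have m0 : u * qhom σ ha hb w0 = w0 := ttr_mem σ hσ ha hb hu _
  have m1 : u * qhom σ ha hb w1 = w1 := ttr_mem σ hσ ha hb hu _
  have m2 : u * qhom σ ha hb w2 = w2 := ttr_mem σ hσ ha hb hu _
  have hadd : ∀ v w : QuadraticAlgebra R a b, u * qhom σ ha hb v = v → u * qhom σ ha hb w = w →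
      u * qhom σ ha hb (v + w) = v + w := by
    intro v w hv hw
    rw [map_add, mul_add, hv, hw]
  have e := norm_three w0 w1 w2 p0 p1 p2
  rw [hrec, QuadraticAlgebra.norm_one] at e
  have : (1 : R) ∈ maximalIdeal R := by
    rw [e]
    have n0 := key w0 m0
    have n1 := key w1 m1
    have n2 := key w2 m2
    have n01 := key _ (hadd _ _ m0 m1)
    have n02 := key _ (hadd _ _ m0 m2)
    have n12 := key _ (hadd _ _ m1 m2)
    refine Ideal.add_mem _ (Ideal.add_mem _ (Ideal.add_mem _ (Ideal.add_mem _ (Ideal.add_mem _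
      (Ideal.mul_mem_left _ _ n0) (Ideal.mul_mem_left _ _ n1)) (Ideal.mul_mem_left _ _ n2))
      (Ideal.mul_mem_left _ _ ?_)) (Ideal.mul_mem_left _ _ ?_)) (Ideal.mul_mem_left _ _ ?_)
    · exact Ideal.sub_mem _ (Ideal.sub_mem _ n01 n0) n1
    · exact Ideal.sub_mem _ (Ideal.sub_mem _ n02 n0) n2
    · exact Ideal.sub_mem _ (Ideal.sub_mem _ n12 n1) n2
  exact (Ideal.ne_top_iff_one _).mp (maximalIdeal.isMaximal R).ne_top this

end H90

section finite

variable {A : Type*} [CommRing A] (τ : A →+* A)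
  (hτ : ∀ x, τ (τ (τ x)) = x)

/-- the norm on units -/
def unorm : Aˣ →* Aˣ :=
  MonoidHom.id Aˣ * Units.map (τ : A →* A) * (Units.map (τ : A →* A)).comp (Units.map (τ : A →* A))

/-- `u ↦ u / τ u` -/
def udel : Aˣ →* Aˣ :=
  MonoidHom.id Aˣ / Units.map (τ : A →* A)

theorem unorm_apply (u : Aˣ) : ((unorm τ u : Aˣ) : A) = u * τ u * τ (τ u) := rfl

theorem mem_ker_udel (u : Aˣ) : u ∈ (udel τ).ker ↔ τ u = u := by
  rw [MonoidHom.mem_ker, udel, MonoidHom.div_apply, div_eq_one, Units.ext_iff]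
  exact eq_comm

include hτ in
theorem exists_norm_eq_of_finite [Finite A]
    (h90 : ∀ u : A, u * τ u * τ (τ u) = 1 → ∃ w : A, IsUnit w ∧ u * τ w = w)
    (ε : A) (hε : IsUnit ε) (hτε : τ ε = ε) :
    ∃ u : A, IsUnit u ∧ u * τ u * τ (τ u) = ε := by
  have h1 : (udel τ).range = (unorm τ).ker := by
    ext u
    rw [MonoidHom.mem_ker, MonoidHom.mem_range]
    constructor
    · rintro ⟨w, rfl⟩
      rw [Units.ext_iff, unorm_apply]
      have e : ((udel τ w : Aˣ) : A) * τ w = w := by
        rw [udel, MonoidHom.div_apply]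
        change ((w / Units.map (τ : A →* A) w : Aˣ) : A) * ((Units.map (τ : A →* A) w : Aˣ) : A) = w
        rw [← Units.val_mul, div_mul_cancel]
      have e2 : τ (udel τ w : Aˣ) * τ (τ w) = τ w := by rw [← map_mul, e]
      have e3 : τ (τ (udel τ w : Aˣ)) * w = τ (τ w) := by
        conv_lhs => rw [← hτ w]
        rw [← map_mul, e2]
      have hw : IsUnit (τ (τ (w : A)) * τ w * w) :=
        (((w.isUnit.map τ).map τ).mul (w.isUnit.map τ)).mul w.isUnit
      apply hw.mul_right_cancel
      rw [Units.val_one, one_mul]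
      linear_combination (τ (udel τ w : Aˣ) * τ (τ (w : A))) * (τ (τ (udel τ w : Aˣ)) * w) * e +
        (τ (τ (udel τ w : Aˣ)) * w) * w * e2 + (w * τ w) * e3
    · intro h
      rw [Units.ext_iff, unorm_apply, Units.val_one] at h
      obtain ⟨w, hw, hw2⟩ := h90 u h
      refine ⟨hw.unit, ?_⟩
      rw [udel, MonoidHom.div_apply, MonoidHom.id_apply, div_eq_iff_eq_mul, Units.ext_iff]
      exact hw2.symm
  have h2 : (unorm τ).range ≤ (udel τ).ker := by
    rintro _ ⟨w, rfl⟩
    rw [mem_ker_udel, unorm_apply, map_mul, map_mul, hτ]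
    ring
  have c1 := Subgroup.card_mul_index (udel τ).ker
  have c2 := Subgroup.card_mul_index (unorm τ).ker
  rw [Subgroup.index_ker] at c1 c2
  rw [← h1, ← c1, mul_comm] at c2
  have hpos : 0 < Nat.card (udel τ).range := Nat.card_pos
  have h3 : Nat.card (unorm τ).range = Nat.card (udel τ).ker :=
    Nat.eq_of_mul_eq_mul_right hpos c2
  have h4 : (unorm τ).range = (udel τ).ker := Subgroup.eq_of_le_of_card_ge h2 h3.ge
  have h5 : hε.unit ∈ (unorm τ).range := by
    rw [h4, mem_ker_udel]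
    exact hτε
  obtain ⟨u, hu⟩ := h5
  refine ⟨u, u.isUnit, ?_⟩
  rw [← unorm_apply, hu]
  rfl

end finite

end Fermat.Agent.LT.Unit
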